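import Fermat.Agent.S25.H251.ChartIdeal

/-!
# S25 / block HILB / leaf H1 (helper251): the chart locus

Let `I` be an ideal of `A ⊗[k] B` whose quotient `Q` is finite projective of constant rank `g`
over `A`.  For `β : Fin g → B` we define an ideal `chartLocus β I` of `A` and prove

* `isChartIdeal_baseIdeal_iff`: for every `k`-algebra map `ψ : A → A'`, the base change of `I`
  is a chart ideal for `β` iff `chartLocus β I` generates the unit ideal of `A'`;
* `iSup_chartLocus_eq_top`: the chart loci cover `Spec A`;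
* `exists_isChartIdeal_of_isLocalRing`: over a local ring some `β` is a chart.

General lemmas: `annihilator_map_eq_top_iff`, `surjective_baseChange_iff`,
`bijective_of_surjective_of_rankAtStalk`, `quotBaseChange`.
-/

set_option autoImplicit false

namespace Fermat.Agent.S25.H251

open TensorProduct

universe u v w w' w'' w'''

section Ann

variable {A : Type w} [CommRing A] (C : Type w'') [AddCommGroup C] [Module A C]

/-- For a finite module `C` and a field `K` over `A`: if the annihilator of `C` dies in `K`,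
then `K ⊗ C` is nontrivial. -/
lemma nontrivial_tensor_field_of_annihilator_le_ker [Module.Finite A C]
    (K : Type w') [Field K] [Algebra A K]
    (h : Module.annihilator A C ≤ RingHom.ker (algebraMap A K)) :
    Nontrivial (K ⊗[A] C) := by
  obtain ⟨p, hpdef⟩ : ∃ p : PrimeSpectrum A, p.asIdeal = RingHom.ker (algebraMap A K) :=
    ⟨⟨_, RingHom.ker_isPrime _⟩, rfl⟩
  have hp : p ∈ Module.support A C := by
    rw [Module.support_eq_zeroLocus, PrimeSpectrum.mem_zeroLocus, hpdef]
    exact h
  rw [Module.mem_support_iff_nontrivial_residueField_tensorProduct] at hp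
  let f : p.asIdeal.ResidueField →+* K :=
    Ideal.ResidueField.lift p.asIdeal (algebraMap A K) hpdef.le (by
      intro x hx
      simp only [Submonoid.mem_comap, IsUnit.mem_submonoid_iff]
      exact isUnit_iff_ne_zero.mpr fun h0 => hx (hpdef ▸ (RingHom.mem_ker.mpr h0)))
  let : Algebra p.asIdeal.ResidueField K := f.toAlgebra
  have : IsScalarTower A p.asIdeal.ResidueField K :=
    IsScalarTower.of_algebraMap_eq fun x => by
      rw [RingHom.algebraMap_toAlgebra]
      exact (Ideal.ResidueField.lift_algebraMap (I := p.asIdeal) (algebraMap A K) _ _ x).symm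
  let e : K ⊗[p.asIdeal.ResidueField] (p.asIdeal.ResidueField ⊗[A] C) ≃ₗ[K] K ⊗[A] C :=
    AlgebraTensorModule.cancelBaseChange A p.asIdeal.ResidueField K K C
  rw [← e.nontrivial_congr]
  exact (Module.FaithfullyFlat.nontrivial_tensorProduct_iff_right _ _).mpr hp

variable {A' : Type w'} [CommRing A'] [Algebra A A']

lemma subsingleton_tensor_of_annihilator_map_eq_top
    (h : (Module.annihilator A C).map (algebraMap A A') = ⊤) : Subsingleton (A' ⊗[A] C) := by
  rw [← Module.annihilator_eq_top_iff (R := A'), eq_top_iff, ← h, Ideal.map_le_iff_le_comap]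
  intro x hx
  rw [Ideal.mem_comap, Module.mem_annihilator]
  intro t
  induction t using TensorProduct.induction_on with
  | zero => simp
  | tmul a c =>
    rw [TensorProduct.smul_tmul', smul_eq_mul, ← Algebra.smul_def,
      TensorProduct.smul_tmul, (Module.mem_annihilator.mp hx) c, TensorProduct.tmul_zero]
  | add s t hs ht => rw [smul_add, hs, ht, add_zero]

lemma annihilator_map_eq_top_of_subsingleton_tensor [Module.Finite A C]
    (h : Subsingleton (A' ⊗[A] C)) : (Module.annihilator A C).map (algebraMap A A') = ⊤ := by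
  by_contra hne
  obtain ⟨m, hm, hle⟩ := Ideal.exists_le_maximal _ hne
  let : Field (A' ⧸ m) := Ideal.Quotient.field m
  have h1 : Module.annihilator A C ≤ RingHom.ker (algebraMap A (A' ⧸ m)) := by
    intro x hx
    rw [RingHom.mem_ker, IsScalarTower.algebraMap_apply A A' (A' ⧸ m),
      Ideal.Quotient.algebraMap_eq, Ideal.Quotient.eq_zero_iff_mem]
    exact hle (Ideal.mem_map_of_mem _ hx)
  have h2 := nontrivial_tensor_field_of_annihilator_le_ker C (A' ⧸ m) h1
  let e : (A' ⧸ m) ⊗[A'] (A' ⊗[A] C) ≃ₗ[A' ⧸ m] (A' ⧸ m) ⊗[A] C :=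
    AlgebraTensorModule.cancelBaseChange A A' (A' ⧸ m) (A' ⧸ m) C
  rw [← e.nontrivial_congr] at h2
  exact not_subsingleton ((A' ⧸ m) ⊗[A'] (A' ⊗[A] C)) inferInstance

theorem annihilator_map_eq_top_iff [Module.Finite A C] :
    (Module.annihilator A C).map (algebraMap A A') = ⊤ ↔ Subsingleton (A' ⊗[A] C) :=
  ⟨subsingleton_tensor_of_annihilator_map_eq_top C,
    annihilator_map_eq_top_of_subsingleton_tensor C⟩

end Ann

section Gen

variable {A : Type w} [CommRing A] {M : Type w''} [AddCommGroup M] [Module A M]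
  {N : Type w'''} [AddCommGroup N] [Module A N]

/-- A base-changed linear map is surjective iff the base change of the cokernel vanishes. -/
lemma surjective_baseChange_iff (A' : Type w') [CommRing A'] [Algebra A A'] (f : M →ₗ[A] N) :
    Function.Surjective (f.baseChange A') ↔
      Subsingleton (A' ⊗[A] (N ⧸ LinearMap.range f)) := by
  have hex : Function.Exact f (LinearMap.range f).mkQ := by
    rw [LinearMap.exact_iff, Submodule.ker_mkQ]
  have hsurj : Function.Surjective (LinearMap.range f).mkQ := Submodule.mkQ_surjective _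
  have hex' := lTensor_exact A' hex hsurj
  have hsurj' : Function.Surjective ((LinearMap.range f).mkQ.lTensor A') :=
    LinearMap.lTensor_surjective A' hsurj
  constructor
  · intro h
    refine ⟨fun x y => ?_⟩
    have key : ∀ z : A' ⊗[A] (N ⧸ LinearMap.range f), z = 0 := by
      intro z
      obtain ⟨y, rfl⟩ := hsurj' z
      obtain ⟨x, rfl⟩ := h y
      exact (hex' _).mpr ⟨x, rfl⟩
    rw [key x, key y]
  · intro h y
    have : (LinearMap.range f).mkQ.lTensor A' y = 0 := Subsingleton.elim _ _
    obtain ⟨x, hx⟩ := (hex' y).mp this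
    exact ⟨x, hx⟩

/-- A surjection from `R ^ g` onto a finite projective module of constant rank `g` is
bijective. -/
lemma bijective_of_surjective_of_rankAtStalk [Module.Finite A M] [Module.Projective A M] {g : ℕ}
    (hrank : ∀ p : PrimeSpectrum A, Module.rankAtStalk (R := A) M p = g)
    (f : (Fin g → A) →ₗ[A] M) (hf : Function.Surjective f) : Function.Bijective f := by
  refine ⟨?_, hf⟩
  obtain ⟨s, hs⟩ := Module.projective_lifting_property f LinearMap.id hf
  -- the projection onto the kernel
  let π : (Fin g → A) →ₗ[A] LinearMap.ker f :=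
    (LinearMap.id - s ∘ₗ f).codRestrict (LinearMap.ker f) (fun x => by
      rw [LinearMap.mem_ker, LinearMap.sub_apply, map_sub, LinearMap.id_apply,
        LinearMap.comp_apply]
      have := LinearMap.congr_fun hs (f x)
      simp only [LinearMap.comp_apply, LinearMap.id_apply] at this
      rw [this, sub_self])
  have hπ : ∀ x : LinearMap.ker f, π x = x := by
    intro x
    apply Subtype.ext
    simp [π, LinearMap.mem_ker.mp x.2]
  have hπsurj : Function.Surjective π := fun x => ⟨x, hπ x⟩
  have : Module.Finite A (LinearMap.ker f) := Module.Finite.of_surjective π hπsurj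
  have : Module.Projective A (LinearMap.ker f) :=
    Module.Projective.of_split (LinearMap.ker f).subtype π (LinearMap.ext hπ)
  -- the decomposition `A ^ g ≃ M × ker f`
  let e : (Fin g → A) ≃ₗ[A] M × LinearMap.ker f :=
    LinearEquiv.ofLinearMap (f.prod π) (s.coprod (LinearMap.ker f).subtype)
      (by
        apply LinearMap.ext
        rintro ⟨m, x⟩
        have h1 : f (s m) = m := LinearMap.congr_fun hs m
        have h2 : π (s m) = 0 := by
          apply Subtype.ext
          simp [π, h1]
        simp [h1, h2, hπ, LinearMap.mem_ker.mp x.2])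
      (by
        apply LinearMap.ext
        intro x
        simp [π])
  have hker : Module.rankAtStalk (R := A) (LinearMap.ker f) = 0 := by
    funext p
    have : Nontrivial A := p.nontrivial
    have h1 := Module.rankAtStalk_eq_of_equiv e
    have h2 := congrFun h1 p
    rw [Module.rankAtStalk_prod, Module.rankAtStalk_eq_finrank_of_free] at h2
    simp only [Module.finrank_fin_fun, Pi.natCast_apply, Pi.add_apply, hrank p] at h2
    simpa using h2
  have hsub : Subsingleton (LinearMap.ker f) := Module.rankAtStalk_eq_zero_iff_subsingleton.mp hker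
  rw [← LinearMap.ker_eq_bot]
  exact Submodule.eq_bot_of_subsingleton

end Gen

variable {k : Type u} [CommRing k] {B : Type v} [CommRing B] [Algebra k B] {g : ℕ}
variable {A : Type w} [CommRing A] [Algebra k A]

section QuotBaseChange

variable {A' : Type w'} [CommRing A'] [Algebra k A'] [Algebra A A'] [IsScalarTower k A A']

lemma cancelBaseChange_includeRight (x : A ⊗[k] B) :
    Algebra.TensorProduct.cancelBaseChange k A A' A' B
      (Algebra.TensorProduct.includeRight (R := A) (A := A') (B := A ⊗[k] B) x) =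
      baseMap (IsScalarTower.toAlgHom k A A') x := by
  induction x using TensorProduct.induction_on with
  | zero => simp
  | tmul a b =>
    simp [Algebra.smul_def]
  | add x y hx hy => simp only [map_add, hx, hy]

lemma baseIdeal_eq_map_cancelBaseChange (I : Ideal (A ⊗[k] B)) :
    baseIdeal (IsScalarTower.toAlgHom k A A') I =
      (I.map (Algebra.TensorProduct.includeRight (R := A) (A := A') (B := A ⊗[k] B))).map
        ((Algebra.TensorProduct.cancelBaseChange k A A' A' B : _ ≃ₐ[A'] _) : _ →+* _) := by
  apply le_antisymm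
  · rw [baseIdeal, Ideal.map_le_iff_le_comap]
    intro x hx
    rw [Ideal.mem_comap, ← cancelBaseChange_includeRight]
    exact Ideal.mem_map_of_mem _ (Ideal.mem_map_of_mem _ hx)
  · rw [Ideal.map_le_iff_le_comap, Ideal.map_le_iff_le_comap]
    intro x hx
    rw [Ideal.mem_comap, Ideal.mem_comap]
    change Algebra.TensorProduct.cancelBaseChange k A A' A' B _ ∈ _
    rw [cancelBaseChange_includeRight]
    exact Ideal.mem_map_of_mem _ hx

/-- Base change of the quotient `(A ⊗ B) ⧸ I` along `A → A'`. -/
noncomputable def quotBaseChange (I : Ideal (A ⊗[k] B)) :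
    A' ⊗[A] ((A ⊗[k] B) ⧸ I) ≃ₗ[A']
      (A' ⊗[k] B) ⧸ baseIdeal (IsScalarTower.toAlgHom k A A') I :=
  ((Algebra.TensorProduct.tensorQuotientEquiv (R := A) A' (A ⊗[k] B) A' I).trans
    (Ideal.quotientEquivAlg _ _ (Algebra.TensorProduct.cancelBaseChange k A A' A' B)
      (baseIdeal_eq_map_cancelBaseChange I))).toLinearEquiv

lemma quotBaseChange_tmul_mk (I : Ideal (A ⊗[k] B)) (a' : A') (x : A ⊗[k] B) :
    quotBaseChange I (a' ⊗ₜ[A] Ideal.Quotient.mk I x) =
      a' • Ideal.Quotient.mk _ (baseMap (IsScalarTower.toAlgHom k A A') x) := by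
  induction x using TensorProduct.induction_on with
  | zero => simp
  | tmul a b =>
    simp only [quotBaseChange, baseMap_tmul, IsScalarTower.coe_toAlgHom', AlgEquiv.toLinearEquiv_apply,
      AlgEquiv.trans_apply, Algebra.TensorProduct.tensorQuotientEquiv_apply_tmul,
      Ideal.quotientEquivAlg_mk, Algebra.TensorProduct.cancelBaseChange_tmul]
    rw [Algebra.smul_def, mul_comm, ← smul_eq_mul, ← TensorProduct.smul_tmul']
    rfl
  | add x y hx hy =>
    simp only [map_add, tmul_add, hx, hy, smul_add]

end QuotBaseChange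

section Frame

variable (β : Fin g → B)

/-- The frame map `A ^ g → (A ⊗ B) ⧸ I`, `c ↦ ∑ c i • [1 ⊗ β i]`. -/
noncomputable def frameMap (I : Ideal (A ⊗[k] B)) : (Fin g → A) →ₗ[A] (A ⊗[k] B) ⧸ I :=
  Fintype.linearCombination A (fun i => Ideal.Quotient.mk I (1 ⊗ₜ[k] β i))

lemma frameMap_apply (I : Ideal (A ⊗[k] B)) (c : Fin g → A) :
    frameMap β I c = ∑ i, c i • Ideal.Quotient.mk I (1 ⊗ₜ[k] β i) :=
  Fintype.linearCombination_apply A _ c

lemma frameMap_single (I : Ideal (A ⊗[k] B)) (i : Fin g) :
    frameMap β I (Pi.single i 1) = Ideal.Quotient.mk I (1 ⊗ₜ[k] β i) := by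
  rw [frameMap, Fintype.linearCombination_apply_single, one_smul]

/-- `I` is a chart ideal for `β` iff the frame map is bijective. -/
theorem isChartIdeal_iff_bijective (I : Ideal (A ⊗[k] B)) :
    IsChartIdeal k β A I ↔ Function.Bijective (frameMap β I) := by
  constructor
  · rintro ⟨b, hb⟩
    have h : (frameMap β I : (Fin g → A) → _) = b.equivFun.symm := by
      funext c
      rw [frameMap_apply, Module.Basis.equivFun_symm_apply]
      exact Finset.sum_congr rfl fun i _ => by rw [hb]
    rw [h]
    exact b.equivFun.symm.bijective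
  · intro h
    refine ⟨Module.Basis.ofEquivFun (LinearEquiv.ofBijective (frameMap β I) h).symm, fun i => ?_⟩
    rw [Module.Basis.coe_ofEquivFun, LinearEquiv.symm_symm]
    exact (LinearEquiv.ofBijective_apply (frameMap β I) (Pi.single i 1)).trans
      (frameMap_single β I i)

/-- The chart locus of `β` in `Spec A`: the complement of the zero locus of this ideal is the
set of points over which `1 ⊗ β i` is a basis of the quotient. -/
noncomputable def chartLocus (I : Ideal (A ⊗[k] B)) : Ideal A :=
  Module.annihilator A (((A ⊗[k] B) ⧸ I) ⧸ LinearMap.range (frameMap β I))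

end Frame

section Locus

variable (β : Fin g → B)

section Tower

variable {A' : Type w'} [CommRing A'] [Algebra k A'] [Algebra A A'] [IsScalarTower k A A']

/-- The frame map of the base-changed ideal is the base change of the frame map. -/
lemma frameMap_baseIdeal_comp (I : Ideal (A ⊗[k] B)) :
    (frameMap β (baseIdeal (IsScalarTower.toAlgHom k A A') I)) ∘ₗ
        (TensorProduct.piScalarRight A A' A' (Fin g)).toLinearMap =
      (quotBaseChange I).toLinearMap ∘ₗ (frameMap β I).baseChange A' := by
  apply LinearMap.ext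
  intro x
  induction x using TensorProduct.induction_on with
  | zero => simp
  | tmul a' c =>
    simp only [LinearMap.comp_apply, LinearEquiv.coe_coe, LinearMap.baseChange_tmul,
      TensorProduct.piScalarRight_apply, TensorProduct.piScalarRightHom_tmul]
    rw [frameMap_apply, frameMap_apply, TensorProduct.tmul_sum, map_sum]
    refine Finset.sum_congr rfl fun i _ => ?_
    have h1 : c i • Ideal.Quotient.mk I ((1 : A) ⊗ₜ[k] β i) =
        Ideal.Quotient.mk I (c i ⊗ₜ[k] β i) := by
      rw [← Ideal.Quotient.mkₐ_eq_mk A, ← map_smul, TensorProduct.smul_tmul', smul_eq_mul,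
        mul_one]
    rw [h1, quotBaseChange_tmul_mk, baseMap_tmul, IsScalarTower.coe_toAlgHom']
    have h2 : ((algebraMap A A') (c i) ⊗ₜ[k] β i : A' ⊗[k] B) =
        (algebraMap A A') (c i) • ((1 : A') ⊗ₜ[k] β i) := by
      rw [TensorProduct.smul_tmul', smul_eq_mul, mul_one]
    rw [h2, ← Ideal.Quotient.mkₐ_eq_mk A', map_smul, smul_smul, Algebra.smul_def, mul_comm]
  | add x y hx hy => simp only [map_add, hx, hy]

lemma surjective_frameMap_baseIdeal_iff (I : Ideal (A ⊗[k] B)) :
    Function.Surjective (frameMap β (baseIdeal (IsScalarTower.toAlgHom k A A') I)) ↔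
      Function.Surjective ((frameMap β I).baseChange A') := by
  have h := frameMap_baseIdeal_comp (A' := A') β I
  have h' : ∀ x, frameMap β (baseIdeal (IsScalarTower.toAlgHom k A A') I)
      (TensorProduct.piScalarRight A A' A' (Fin g) x) =
        quotBaseChange I ((frameMap β I).baseChange A' x) := fun x => LinearMap.congr_fun h x
  constructor
  · intro hs y
    obtain ⟨c, hc⟩ := hs (quotBaseChange I y)
    refine ⟨(TensorProduct.piScalarRight A A' A' (Fin g)).symm c, ?_⟩
    apply (quotBaseChange I).injective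
    rw [← h', LinearEquiv.apply_symm_apply, hc]
  · intro hs y
    obtain ⟨x, hx⟩ := hs ((quotBaseChange I).symm y)
    refine ⟨TensorProduct.piScalarRight A A' A' (Fin g) x, ?_⟩
    rw [h', hx, LinearEquiv.apply_symm_apply]

variable {I : Ideal (A ⊗[k] B)} [Module.Finite A ((A ⊗[k] B) ⧸ I)]
  [Module.Projective A ((A ⊗[k] B) ⧸ I)]

omit [Module.Projective A ((A ⊗[k] B) ⧸ I)] in
/-- The base-changed quotient is finite. -/
lemma finite_quot_baseIdeal :
    Module.Finite A' ((A' ⊗[k] B) ⧸ baseIdeal (IsScalarTower.toAlgHom k A A') I) :=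
  Module.Finite.equiv (quotBaseChange (A' := A') I)

omit [Module.Finite A ((A ⊗[k] B) ⧸ I)] in
/-- The base-changed quotient is projective. -/
lemma projective_quot_baseIdeal :
    Module.Projective A' ((A' ⊗[k] B) ⧸ baseIdeal (IsScalarTower.toAlgHom k A A') I) :=
  Module.Projective.of_equiv (quotBaseChange (A' := A') I)

/-- The base-changed quotient has the same constant rank. -/
lemma rankAtStalk_quot_baseIdeal
    (hrank : ∀ p : PrimeSpectrum A, Module.rankAtStalk (R := A) ((A ⊗[k] B) ⧸ I) p = g)
    (p : PrimeSpectrum A') :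
    Module.rankAtStalk (R := A')
      ((A' ⊗[k] B) ⧸ baseIdeal (IsScalarTower.toAlgHom k A A') I) p = g := by
  rw [← Module.rankAtStalk_eq_of_equiv (quotBaseChange (A' := A') I),
    Module.rankAtStalk_baseChange, hrank]

/-- Tower form of `isChartIdeal_baseIdeal_iff`. -/
theorem isChartIdeal_baseIdeal_iff_of_tower
    (hrank : ∀ p : PrimeSpectrum A, Module.rankAtStalk (R := A) ((A ⊗[k] B) ⧸ I) p = g) :
    IsChartIdeal k β A' (baseIdeal (IsScalarTower.toAlgHom k A A') I) ↔
      (chartLocus β I).map (algebraMap A A') = ⊤ := by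
  have := finite_quot_baseIdeal (A' := A') (I := I)
  have := projective_quot_baseIdeal (A' := A') (I := I)
  rw [isChartIdeal_iff_bijective, chartLocus, annihilator_map_eq_top_iff,
    ← surjective_baseChange_iff, ← surjective_frameMap_baseIdeal_iff]
  exact ⟨fun h => h.2, fun h => bijective_of_surjective_of_rankAtStalk
    (rankAtStalk_quot_baseIdeal hrank) _ h⟩

end Tower

variable {I : Ideal (A ⊗[k] B)} [Module.Finite A ((A ⊗[k] B) ⧸ I)]
  [Module.Projective A ((A ⊗[k] B) ⧸ I)]

/-- **Chart locus.**  If `(A ⊗ B) ⧸ I` is finite projective of constant rank `g` over `A`, then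
for every `k`-algebra map `ψ : A → A'` the base change of `I` to `A'` is a chart ideal for `β`
iff the ideal `chartLocus β I` generates the unit ideal of `A'`. -/
theorem isChartIdeal_baseIdeal_iff
    (hrank : ∀ p : PrimeSpectrum A, Module.rankAtStalk (R := A) ((A ⊗[k] B) ⧸ I) p = g)
    {A' : Type w'} [CommRing A'] [Algebra k A'] (ψ : A →ₐ[k] A') :
    IsChartIdeal k β A' (baseIdeal ψ I) ↔ (chartLocus β I).map ψ.toRingHom = ⊤ := by
  let : Algebra A A' := ψ.toRingHom.toAlgebra
  have : IsScalarTower k A A' := IsScalarTower.of_algebraMap_eq' ψ.comp_algebraMap.symm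
  have h1 : IsScalarTower.toAlgHom k A A' = ψ := AlgHom.ext fun _ => rfl
  have h2 := isChartIdeal_baseIdeal_iff_of_tower (A' := A') β hrank
  rw [h1] at h2
  exact h2

end Locus

section Cover

/-- `A' ⊗[k] B` is spanned over `A'` by the elements `1 ⊗ b`. -/
lemma span_one_tmul_eq_top (A' : Type w') [CommRing A'] [Algebra k A'] :
    Submodule.span A' (Set.range fun b : B => ((1 : A') ⊗ₜ[k] b : A' ⊗[k] B)) = ⊤ := by
  rw [eq_top_iff]
  rintro x -
  induction x using TensorProduct.induction_on with
  | zero => exact Submodule.zero_mem _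
  | tmul a b =>
    have h : (a ⊗ₜ[k] b : A' ⊗[k] B) = a • ((1 : A') ⊗ₜ[k] b) := by
      rw [TensorProduct.smul_tmul', smul_eq_mul, mul_one]
    rw [h]
    exact Submodule.smul_mem _ _ (Submodule.subset_span ⟨b, rfl⟩)
  | add x y hx hy => exact Submodule.add_mem _ hx hy

/-- The quotient `(A' ⊗[k] B) ⧸ I'` is spanned over `A'` by the classes of `1 ⊗ b`. -/
lemma span_mk_one_tmul_eq_top {A' : Type w'} [CommRing A'] [Algebra k A']
    (I' : Ideal (A' ⊗[k] B)) :
    Submodule.span A' (Set.range fun b : B => Ideal.Quotient.mk I' ((1 : A') ⊗ₜ[k] b)) = ⊤ := by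
  have h := span_one_tmul_eq_top (k := k) (B := B) A'
  have h2 : (Set.range fun b : B => Ideal.Quotient.mk I' ((1 : A') ⊗ₜ[k] b)) =
      (Ideal.Quotient.mkₐ A' I').toLinearMap ''
        (Set.range fun b : B => ((1 : A') ⊗ₜ[k] b : A' ⊗[k] B)) := by
    rw [← Set.range_comp]
    rfl
  rw [h2, ← Submodule.map_span, h, Submodule.map_top, LinearMap.range_eq_top]
  exact Ideal.Quotient.mk_surjective

/-- Over a field, every ideal with quotient of dimension `g` is a chart ideal for some `β`. -/
theorem exists_isChartIdeal_of_field {K : Type w'} [Field K] [Algebra k K]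
    (I' : Ideal (K ⊗[k] B)) [Module.Finite K ((K ⊗[k] B) ⧸ I')]
    (hg : Module.finrank K ((K ⊗[k] B) ⧸ I') = g) :
    ∃ β : Fin g → B, IsChartIdeal k β K I' := by
  obtain ⟨s, hsS, hspan, hli⟩ := exists_linearIndependent K
    (Set.range fun b : B => Ideal.Quotient.mk I' ((1 : K) ⊗ₜ[k] b))
  rw [span_mk_one_tmul_eq_top] at hspan
  let bas : Module.Basis s K ((K ⊗[k] B) ⧸ I') :=
    Module.Basis.mk hli (by rw [Subtype.range_coe, hspan])
  have : Fintype s := FiniteDimensional.fintypeBasisIndex bas
  have hcard : Fintype.card s = g := by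
    rw [← hg, Module.finrank_eq_card_basis bas]
  let e : s ≃ Fin g := Fintype.equivFinOfCardEq hcard
  have hex : ∀ i : Fin g, ∃ b : B,
      Ideal.Quotient.mk I' ((1 : K) ⊗ₜ[k] b) = ((e.symm i : s) : (K ⊗[k] B) ⧸ I') :=
    fun i => hsS (e.symm i).2
  choose β hβ using hex
  refine ⟨β, bas.reindex e, fun i => ?_⟩
  rw [Module.Basis.reindex_apply, Module.Basis.mk_apply, hβ]

variable {I : Ideal (A ⊗[k] B)} [Module.Finite A ((A ⊗[k] B) ⧸ I)]
  [Module.Projective A ((A ⊗[k] B) ⧸ I)]

/-- **Covering.**  The chart loci of all `β : Fin g → B` cover `Spec A`. -/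
theorem iSup_chartLocus_eq_top
    (hrank : ∀ p : PrimeSpectrum A, Module.rankAtStalk (R := A) ((A ⊗[k] B) ⧸ I) p = g) :
    (⨆ β : Fin g → B, chartLocus β I) = ⊤ := by
  by_contra hne
  obtain ⟨m, hm, hle⟩ := Ideal.exists_le_maximal _ hne
  let : Field (A ⧸ m) := Ideal.Quotient.field m
  have := finite_quot_baseIdeal (A' := A ⧸ m) (I := I)
  have hfin : Module.finrank (A ⧸ m)
      (((A ⧸ m) ⊗[k] B) ⧸ baseIdeal (IsScalarTower.toAlgHom k A (A ⧸ m)) I) = g := by
    have h := rankAtStalk_quot_baseIdeal (A' := A ⧸ m) hrank ⟨⊥, Ideal.isPrime_bot⟩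
    rw [Module.rankAtStalk_eq_finrank_of_free] at h
    simpa using h
  obtain ⟨β, hβ⟩ := exists_isChartIdeal_of_field _ hfin
  have h1 := (isChartIdeal_baseIdeal_iff_of_tower (A' := A ⧸ m) β hrank).mp hβ
  have h2 : chartLocus β I ≤ m := le_trans (le_iSup (fun β => chartLocus β I) β) hle
  have h3 : (chartLocus β I).map (algebraMap A (A ⧸ m)) ≤ ⊥ := by
    rw [Ideal.map_le_iff_le_comap]
    intro x hx
    rw [Ideal.mem_comap, Ideal.mem_bot, Ideal.Quotient.algebraMap_eq,
      Ideal.Quotient.eq_zero_iff_mem]
    exact h2 hx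
  rw [h1] at h3
  exact bot_ne_top (le_antisymm bot_le h3)

omit [Module.Finite A ((A ⊗[k] B) ⧸ I)] [Module.Projective A ((A ⊗[k] B) ⧸ I)] in
lemma baseIdeal_id : baseIdeal (AlgHom.id k A) I = I := by
  have h : (baseMap (B := B) (AlgHom.id k A) : A ⊗[k] B →ₐ[k] A ⊗[k] B) = AlgHom.id k _ := by
    ext <;> simp [baseMap]
  rw [baseIdeal, h]
  exact Ideal.map_id I

/-- `I` is a chart ideal for `β` iff its chart locus is everything. -/
theorem isChartIdeal_iff_chartLocus_eq_top (β : Fin g → B)
    (hrank : ∀ p : PrimeSpectrum A, Module.rankAtStalk (R := A) ((A ⊗[k] B) ⧸ I) p = g) :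
    IsChartIdeal k β A I ↔ chartLocus β I = ⊤ := by
  have h := isChartIdeal_baseIdeal_iff β hrank (AlgHom.id k A)
  rw [baseIdeal_id] at h
  rw [h]
  exact Iff.of_eq (congrArg (· = ⊤) (Ideal.map_id _))

/-- **Local covering.**  Over a local ring `A`, every ideal of `A ⊗ B` whose quotient is finite
projective of rank `g` is a chart ideal for some `β`. -/
theorem exists_isChartIdeal_of_isLocalRing [IsLocalRing A]
    (hrank : ∀ p : PrimeSpectrum A, Module.rankAtStalk (R := A) ((A ⊗[k] B) ⧸ I) p = g) :
    ∃ β : Fin g → B, IsChartIdeal k β A I := by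
  by_contra hcon
  simp only [not_exists] at hcon
  have h := iSup_chartLocus_eq_top (I := I) hrank
  have h2 : (⨆ β : Fin g → B, chartLocus β I) ≤ IsLocalRing.maximalIdeal A :=
    iSup_le fun β => IsLocalRing.le_maximalIdeal fun htop =>
      hcon β ((isChartIdeal_iff_chartLocus_eq_top β hrank).mpr htop)
  rw [h] at h2
  exact (IsLocalRing.maximalIdeal.isMaximal A).ne_top (top_le_iff.mp h2)

/-- Local covering, free form: over a local ring `A`, every ideal of `A ⊗ B` whose quotient is
free of rank `g` is a chart ideal for some `β`. -/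
theorem exists_isChartIdeal_of_isLocalRing_of_free [IsLocalRing A]
    [Module.Free A ((A ⊗[k] B) ⧸ I)] (hg : Module.finrank A ((A ⊗[k] B) ⧸ I) = g) :
    ∃ β : Fin g → B, IsChartIdeal k β A I :=
  exists_isChartIdeal_of_isLocalRing fun p => by
    rw [Module.rankAtStalk_eq_finrank_of_free]
    simpa using hg

/-- **Locus theorem**, in the shape of `ChartFamily.locus`: the chart loci cover `Spec A` and
are compatible with arbitrary base change. -/
theorem exists_chartLocus
    (hrank : ∀ p : PrimeSpectrum A, Module.rankAtStalk (R := A) ((A ⊗[k] B) ⧸ I) p = g) :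
    ∃ J : (Fin g → B) → Ideal A, (⨆ β, J β) = ⊤ ∧
      ∀ (β : Fin g → B) (A' : Type w) [CommRing A'] [Algebra k A'] (ψ : A →ₐ[k] A'),
        IsChartIdeal k β A' (baseIdeal ψ I) ↔ (J β).map ψ.toRingHom = ⊤ :=
  ⟨fun β => chartLocus β I, iSup_chartLocus_eq_top hrank,
    fun β _ _ _ ψ => isChartIdeal_baseIdeal_iff β hrank ψ⟩

end Cover

end Fermat.Agent.S25.H251
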