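import Fermat.Agent.S25.H251.RepAlg

/-!
# S25 / block HILB / leaf H1 (helper251): chart ideals = matrix points

For a `k`-algebra `A`, an ideal `I` of `A ⊗[k] B` is a *chart ideal* for `β : Fin g → B` if the
images of `1 ⊗ β i` form an `A`-basis of `(A ⊗[k] B) ⧸ I`.  We show that chart ideals are in
natural bijection with the matrix points `MatPt k B β A` of `RepAlg.lean`, hence with
`RepAlg k B β →ₐ[k] A`.
-/

set_option autoImplicit false

namespace Fermat.Agent.S25.H251

open TensorProduct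

universe u v w w'

variable {k : Type u} [CommRing k] {B : Type v} [CommRing B] [Algebra k B] {g : ℕ}
variable {β : Fin g → B} {A : Type w} [CommRing A] [Algebra k A]

variable (k β A) in
/-- `I` is a chart ideal for `β`: the images of `1 ⊗ β i` form an `A`-basis of the quotient. -/
def IsChartIdeal (I : Ideal (A ⊗[k] B)) : Prop :=
  ∃ b : Module.Basis (Fin g) A ((A ⊗[k] B) ⧸ I), ∀ i, b i = Ideal.Quotient.mk I (1 ⊗ₜ[k] β i)

/-- The basis of the quotient by a chart ideal. -/
noncomputable def IsChartIdeal.basis {I : Ideal (A ⊗[k] B)} (h : IsChartIdeal k β A I) :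
    Module.Basis (Fin g) A ((A ⊗[k] B) ⧸ I) :=
  Exists.choose h

lemma IsChartIdeal.basis_apply {I : Ideal (A ⊗[k] B)} (h : IsChartIdeal k β A I) (i : Fin g) :
    h.basis i = Ideal.Quotient.mk I (1 ⊗ₜ[k] β i) :=
  Exists.choose_spec h i

lemma IsChartIdeal.basis_eq {I : Ideal (A ⊗[k] B)} (h : IsChartIdeal k β A I)
    (b : Module.Basis (Fin g) A ((A ⊗[k] B) ⧸ I))
    (hb : ∀ i, b i = Ideal.Quotient.mk I (1 ⊗ₜ[k] β i)) : h.basis = b :=
  Module.Basis.eq_of_apply_eq fun i => by rw [h.basis_apply, hb]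

namespace MatPt

variable (P : MatPt k B β A)

/-- The `A`-algebra map `A ⊗[k] B → Matrix (Fin g) (Fin g) A` attached to a matrix point. -/
noncomputable def toMat : A ⊗[k] B →ₐ[A] Matrix (Fin g) (Fin g) A :=
  Algebra.TensorProduct.lift (Algebra.ofId A _) P.ρ
    (fun a b => by rw [Algebra.ofId_apply]; exact Algebra.commute_algebraMap_left a (P.ρ b))

@[simp] lemma toMat_tmul (a : A) (b : B) : P.toMat (a ⊗ₜ b) = a • P.ρ b := by
  rw [toMat, Algebra.TensorProduct.lift_tmul, Algebra.ofId_apply, Algebra.smul_def]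

/-- The `A`-linear map `x ↦ x • v` from `A ⊗[k] B` to `A ^ g`. -/
noncomputable def toVec : A ⊗[k] B →ₗ[A] (Fin g → A) where
  toFun x := (P.toMat x).mulVec P.v
  map_add' x y := by rw [map_add, Matrix.add_mulVec]
  map_smul' a x := by rw [map_smul, Matrix.smul_mulVec]; rfl

lemma toVec_apply (x : A ⊗[k] B) : P.toVec x = (P.toMat x).mulVec P.v := rfl

lemma toVec_mul (x y : A ⊗[k] B) : P.toVec (x * y) = (P.toMat x).mulVec (P.toVec y) := by
  rw [toVec_apply, toVec_apply, map_mul, Matrix.mulVec_mulVec]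

lemma toVec_one_tmul_β (i : Fin g) : P.toVec (1 ⊗ₜ β i) = Pi.single i 1 := by
  rw [toVec_apply, toMat_tmul, one_smul, P.cyc]

lemma toVec_surjective : Function.Surjective P.toVec := by
  intro w
  refine ⟨∑ i, w i • (1 ⊗ₜ[k] β i), ?_⟩
  rw [map_sum]
  simp only [map_smul, toVec_one_tmul_β]
  ext j
  simp [Finset.sum_apply, Pi.single_apply]

/-- The ideal of a matrix point: the annihilator of the cyclic vector. -/
noncomputable def ideal : Ideal (A ⊗[k] B) where
  carrier := {x | P.toVec x = 0}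
  add_mem' {x y} hx hy := by
    simp only [Set.mem_ofPred_eq] at hx hy ⊢
    rw [map_add, hx, hy, add_zero]
  zero_mem' := by simp
  smul_mem' c x hx := by
    simp only [Set.mem_ofPred_eq] at hx ⊢
    rw [smul_eq_mul, toVec_mul, hx, Matrix.mulVec_zero]

lemma mem_ideal {x : A ⊗[k] B} : x ∈ P.ideal ↔ P.toVec x = 0 := Iff.rfl

lemma ideal_restrictScalars : P.ideal.restrictScalars A = LinearMap.ker P.toVec := by
  ext x
  simp [mem_ideal]

/-- The quotient by the ideal of a matrix point is `A ^ g`. -/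
noncomputable def quotEquiv : ((A ⊗[k] B) ⧸ P.ideal) ≃ₗ[A] (Fin g → A) :=
  (Submodule.Quotient.restrictScalarsEquiv A P.ideal).symm ≪≫ₗ
    (Submodule.quotEquivOfEq _ _ P.ideal_restrictScalars) ≪≫ₗ
    P.toVec.quotKerEquivOfSurjective P.toVec_surjective

@[simp] lemma quotEquiv_mk (x : A ⊗[k] B) :
    P.quotEquiv (Ideal.Quotient.mk P.ideal x) = P.toVec x := rfl

/-- The basis of the quotient given by the images of `1 ⊗ β i`. -/
noncomputable def basis : Module.Basis (Fin g) A ((A ⊗[k] B) ⧸ P.ideal) :=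
  (Pi.basisFun A (Fin g)).map P.quotEquiv.symm

lemma basis_apply (i : Fin g) : P.basis i = Ideal.Quotient.mk P.ideal (1 ⊗ₜ[k] β i) := by
  rw [basis, Module.Basis.map_apply, LinearEquiv.symm_apply_eq, quotEquiv_mk, toVec_one_tmul_β,
    Pi.basisFun_apply]

lemma isChartIdeal : IsChartIdeal k β A P.ideal := ⟨P.basis, P.basis_apply⟩

end MatPt

section OfIdeal

variable (I : Ideal (A ⊗[k] B)) (b : Module.Basis (Fin g) A ((A ⊗[k] B) ⧸ I))

/-- Multiplication on the quotient, in matrix form with respect to a basis. -/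
noncomputable def mulMat : A ⊗[k] B →ₐ[A] Matrix (Fin g) (Fin g) A :=
  (LinearMap.toMatrixAlgEquiv b).toAlgHom.comp
    ((Algebra.lmul A ((A ⊗[k] B) ⧸ I)).comp (Ideal.Quotient.mkₐ A I))

lemma mulMat_mulVec_repr (x : A ⊗[k] B) (q : (A ⊗[k] B) ⧸ I) :
    (mulMat I b x).mulVec (b.repr q) = b.repr (Ideal.Quotient.mk I x * q) := by
  simp [mulMat, LinearMap.toMatrixAlgEquiv, LinearMap.toMatrix]

/-- The matrix point of a chart ideal (with respect to a basis `b` with `b i = [1 ⊗ β i]`). -/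
noncomputable def matPtOfBasis (hb : ∀ i, b i = Ideal.Quotient.mk I (1 ⊗ₜ[k] β i)) :
    MatPt k B β A where
  ρ := ((mulMat I b).restrictScalars k).comp Algebra.TensorProduct.includeRight
  v := b.repr 1
  cyc i := by
    have h := mulMat_mulVec_repr I b (1 ⊗ₜ[k] β i) 1
    rw [mul_one, ← hb i, Module.Basis.repr_self] at h
    rw [show (((mulMat I b).restrictScalars k).comp Algebra.TensorProduct.includeRight) (β i) =
      mulMat I b (1 ⊗ₜ[k] β i) from rfl, h]
    ext j
    simp [Finsupp.single_apply, Pi.single_apply, eq_comm]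

lemma matPtOfBasis_toMat (hb : ∀ i, b i = Ideal.Quotient.mk I (1 ⊗ₜ[k] β i)) :
    (matPtOfBasis I b hb).toMat = mulMat I b := by
  apply Algebra.TensorProduct.ext
  · ext
  · ext x
    simp [matPtOfBasis, MatPt.toMat]

lemma matPtOfBasis_toVec (hb : ∀ i, b i = Ideal.Quotient.mk I (1 ⊗ₜ[k] β i)) (x : A ⊗[k] B) :
    (matPtOfBasis I b hb).toVec x = b.repr (Ideal.Quotient.mk I x) := by
  rw [MatPt.toVec_apply, matPtOfBasis_toMat]
  have := mulMat_mulVec_repr I b x 1
  rw [mul_one] at this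
  exact this

lemma matPtOfBasis_ideal (hb : ∀ i, b i = Ideal.Quotient.mk I (1 ⊗ₜ[k] β i)) :
    (matPtOfBasis I b hb).ideal = I := by
  ext x
  rw [MatPt.mem_ideal, matPtOfBasis_toVec]
  constructor
  · intro h
    have h2 : b.repr (Ideal.Quotient.mk I x) = 0 := by
      ext j
      simp [h]
    rw [LinearEquiv.map_eq_zero_iff] at h2
    exact Ideal.Quotient.eq_zero_iff_mem.mp h2
  · intro h
    rw [Ideal.Quotient.eq_zero_iff_mem.mpr h, map_zero]
    rfl

end OfIdeal

namespace MatPt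

variable (P : MatPt k B β A)

lemma basis_repr_mk (x : A ⊗[k] B) (j : Fin g) :
    P.basis.repr (Ideal.Quotient.mk P.ideal x) j = P.toVec x j := by
  simp [basis]

lemma matPtOfBasis_basis : matPtOfBasis P.ideal P.basis P.basis_apply = P := by
  have hvec : ∀ x, (matPtOfBasis P.ideal P.basis P.basis_apply).toVec x = P.toVec x := by
    intro x
    rw [matPtOfBasis_toVec]
    ext j
    exact P.basis_repr_mk x j
  have hv : (matPtOfBasis P.ideal P.basis P.basis_apply).v = P.v := by
    have h1 := hvec 1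
    simpa [MatPt.toVec_apply] using h1
  have hρ : ∀ b, (matPtOfBasis P.ideal P.basis P.basis_apply).ρ b = P.ρ b := by
    intro b
    -- compare columns: `ρ b *ᵥ e_i = ρ b *ᵥ (ρ (β i) *ᵥ v) = toVec (b β_i)`
    ext i j
    have h1 := hvec (1 ⊗ₜ[k] (b * β j))
    have e1 : ∀ Q : MatPt k B β A, Q.toVec (1 ⊗ₜ[k] (b * β j)) = (Q.ρ b).mulVec (Pi.single j 1) := by
      intro Q
      rw [Q.toVec_apply, Q.toMat_tmul, one_smul, map_mul, ← Matrix.mulVec_mulVec, Q.cyc]
    rw [e1, e1] at h1
    have h2 := congrFun h1 i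
    simpa using h2
  ext1
  · exact AlgHom.ext hρ
  · exact hv

end MatPt

section BaseChange

variable {A' : Type w'} [CommRing A'] [Algebra k A'] (φ : A →ₐ[k] A')

/-- The base change map `A ⊗[k] B → A' ⊗[k] B` along `φ : A → A'`. -/
noncomputable def baseMap : A ⊗[k] B →ₐ[k] A' ⊗[k] B :=
  Algebra.TensorProduct.map φ (AlgHom.id k B)

@[simp] lemma baseMap_tmul (a : A) (b : B) :
    baseMap (B := B) φ (a ⊗ₜ[k] b) = φ a ⊗ₜ[k] b := rfl

/-- Base change of an ideal of `A ⊗[k] B` along `φ : A → A'`. -/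
noncomputable def baseIdeal (I : Ideal (A ⊗[k] B)) : Ideal (A' ⊗[k] B) :=
  Ideal.map (baseMap (B := B) φ) I

namespace MatPt

variable (P : MatPt k B β A)

lemma map_toVec (x : A ⊗[k] B) :
    (P.map φ).toVec (baseMap φ x) = (φ : A → A') ∘ (P.toVec x) := by
  induction x using TensorProduct.induction_on with
  | zero =>
    ext j
    simp
  | tmul a b =>
    ext j
    simp [MatPt.toVec_apply, Matrix.mulVec, dotProduct, map_sum, map_mul, Matrix.smul_apply]
  | add x y hx hy =>
    rw [map_add, map_add, hx, map_add, hy]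
    ext j
    simp

/-- Every element is congruent modulo the base-changed ideal to the combination of the `1 ⊗ β i`
given by its coordinate vector. -/
lemma sub_sum_mem_baseIdeal (x' : A' ⊗[k] B) :
    x' - ∑ i, (P.map φ).toVec x' i • (1 ⊗ₜ[k] β i) ∈ baseIdeal φ P.ideal := by
  induction x' using TensorProduct.induction_on with
  | zero => simp
  | tmul a' b =>
    -- the statement for `1 ⊗ b` over `A`
    have h0 : (1 ⊗ₜ[k] b : A ⊗[k] B) - ∑ i, P.toVec (1 ⊗ₜ[k] b) i • (1 ⊗ₜ[k] β i) ∈ P.ideal := by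
      rw [MatPt.mem_ideal, map_sub, map_sum]
      simp only [map_smul, MatPt.toVec_one_tmul_β]
      ext j
      simp [Finset.sum_apply, Pi.single_apply]
    have h1 : baseMap (B := B) φ ((1 ⊗ₜ[k] b : A ⊗[k] B) -
        ∑ i, P.toVec (1 ⊗ₜ[k] b) i • (1 ⊗ₜ[k] β i)) ∈ baseIdeal φ P.ideal :=
      Ideal.mem_map_of_mem _ h0
    have h2 : baseMap (B := B) φ ((1 ⊗ₜ[k] b : A ⊗[k] B) -
        ∑ i, P.toVec (1 ⊗ₜ[k] b) i • (1 ⊗ₜ[k] β i)) =
        (1 ⊗ₜ[k] b : A' ⊗[k] B) - ∑ i, (P.map φ).toVec (1 ⊗ₜ[k] b) i • (1 ⊗ₜ[k] β i) := by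
      rw [map_sub, map_sum]
      congr 1
      · simp
      · refine Finset.sum_congr rfl fun i _ => ?_
        have := congrFun (P.map_toVec φ (1 ⊗ₜ[k] b)) i
        simp only [baseMap_tmul, map_one, Function.comp_apply] at this
        rw [this, TensorProduct.smul_tmul', TensorProduct.smul_tmul', baseMap_tmul]
        simp
    rw [h2] at h1
    have h3 : (a' ⊗ₜ[k] b : A' ⊗[k] B) -
        ∑ i, (P.map φ).toVec (a' ⊗ₜ[k] b) i • (1 ⊗ₜ[k] β i) =
        (a' ⊗ₜ[k] (1 : B)) * ((1 ⊗ₜ[k] b : A' ⊗[k] B) -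
          ∑ i, (P.map φ).toVec (1 ⊗ₜ[k] b) i • (1 ⊗ₜ[k] β i)) := by
      have e : (a' ⊗ₜ[k] b : A' ⊗[k] B) = a' • (1 ⊗ₜ[k] b) := by
        rw [TensorProduct.smul_tmul', smul_eq_mul, mul_one]
      rw [mul_sub, Finset.mul_sum]
      congr 1
      · simp
      · refine Finset.sum_congr rfl fun i _ => ?_
        rw [e, map_smul, Pi.smul_apply, smul_eq_mul, mul_smul,
          show (a' ⊗ₜ[k] (1 : B) : A' ⊗[k] B) = a' • 1 by
            rw [Algebra.TensorProduct.one_def, TensorProduct.smul_tmul', smul_eq_mul, mul_one],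
          smul_mul_assoc, one_mul]
    rw [h3]
    exact Ideal.mul_mem_left _ _ h1
  | add x y hx hy =>
    have : x + y - ∑ i, (P.map φ).toVec (x + y) i • (1 ⊗ₜ[k] β i) =
        (x - ∑ i, (P.map φ).toVec x i • (1 ⊗ₜ[k] β i)) +
        (y - ∑ i, (P.map φ).toVec y i • (1 ⊗ₜ[k] β i)) := by
      simp only [map_add, Pi.add_apply, add_smul, Finset.sum_add_distrib]
      abel
    rw [this]
    exact Ideal.add_mem _ hx hy

/-- **Base change**: the ideal of the image of a matrix point is the base change of its ideal. -/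
theorem map_ideal : (P.map φ).ideal = baseIdeal φ P.ideal := by
  apply le_antisymm
  · intro x' hx'
    have h := P.sub_sum_mem_baseIdeal φ x'
    rw [MatPt.mem_ideal] at hx'
    simpa [hx'] using h
  · rw [baseIdeal, Ideal.map_le_iff_le_comap]
    intro x hx
    rw [Ideal.mem_comap, MatPt.mem_ideal, P.map_toVec φ x, (MatPt.mem_ideal P).mp hx]
    ext j
    simp

end MatPt

/-- Chart ideals are stable under base change. -/
theorem IsChartIdeal.baseIdeal {I : Ideal (A ⊗[k] B)} (h : IsChartIdeal k β A I) :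
    IsChartIdeal k β A' (baseIdeal φ I) := by
  have hI := matPtOfBasis_ideal I h.basis h.basis_apply
  rw [← hI, ← MatPt.map_ideal]
  exact MatPt.isChartIdeal _

end BaseChange

variable (k β A) in
/-- **Chart ideals are matrix points.** -/
noncomputable def chartEquiv :
    MatPt k B β A ≃ {I : Ideal (A ⊗[k] B) // IsChartIdeal k β A I} where
  toFun P := ⟨P.ideal, P.isChartIdeal⟩
  invFun I := matPtOfBasis I.1 I.2.basis I.2.basis_apply
  left_inv P := by
    have key : ∀ (b' : Module.Basis (Fin g) A ((A ⊗[k] B) ⧸ P.ideal))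
        (hb' : ∀ i, b' i = Ideal.Quotient.mk P.ideal (1 ⊗ₜ[k] β i)),
        b' = P.basis → matPtOfBasis P.ideal b' hb' = P := by
      rintro b' hb' rfl
      exact P.matPtOfBasis_basis
    exact key _ _ (P.isChartIdeal.basis_eq P.basis P.basis_apply)
  right_inv I := Subtype.ext (matPtOfBasis_ideal I.1 _ _)

/-- Naturality of `chartEquiv` in the test algebra. -/
lemma chartEquiv_map {A' : Type w'} [CommRing A'] [Algebra k A'] (φ : A →ₐ[k] A')
    (P : MatPt k B β A) :
    (chartEquiv k β A' (P.map φ) : Ideal (A' ⊗[k] B)) = baseIdeal φ (chartEquiv k β A P).1 :=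
  P.map_ideal φ

/-- **Representability of the chart of the Hilbert functor**: chart ideals of `A ⊗[k] B` are the
same as `k`-algebra maps `RepAlg k B β →ₐ[k] A`. -/
noncomputable def chartRepEquiv (k : Type u) [CommRing k] {B : Type v} [CommRing B] [Algebra k B]
    {g : ℕ} (β : Fin g → B) (A : Type w) [CommRing A] [Algebra k A] :
    (RepAlg k B β →ₐ[k] A) ≃ {I : Ideal (A ⊗[k] B) // IsChartIdeal k β A I} :=
  (repEquiv k β A).trans (chartEquiv k β A)

/-- Naturality of `chartRepEquiv`: composing with `φ : A → A'` is base change of ideals. -/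
theorem chartRepEquiv_comp {A' : Type w'} [CommRing A'] [Algebra k A'] (φ : A →ₐ[k] A')
    (f : RepAlg k B β →ₐ[k] A) :
    (chartRepEquiv k β A' (φ.comp f) : Ideal (A' ⊗[k] B)) =
      baseIdeal φ (chartRepEquiv k β A f).1 := by
  simp only [chartRepEquiv, Equiv.trans_apply]
  rw [repEquiv_comp, chartEquiv_map]

end Fermat.Agent.S25.H251
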