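import Mathlib

/-!
# S25 / ALGCHARTS C6 core (helper251): selection of points in general position

Pure linear algebra.  `V` is a finite-dimensional vector space ("sections"), `X` an infinite
set ("points"), `Z q ⊆ V` the subspace of sections vanishing at `q` (of codimension `≤ 1`), and
every nonzero section vanishes at only finitely many points.  Then for any finite family of
subspaces `U t` one can choose distinct points `q 1, …, q j` which impose independent conditions
on every `U t` simultaneously:
`dim (U t ⊓ ⨅ i, Z (q i)) = dim (U t) - j` (truncated subtraction).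
-/

set_option autoImplicit false

namespace Fermat.Agent.S25.H251

open Module

universe u v w

section Selection

variable {K : Type u} [Field K] {V : Type v} [AddCommGroup V] [Module K V]
  [FiniteDimensional K V]

/-- One more condition: if `Z` has codimension `≤ 1` and `s ∈ U \ Z`, then `U ⊓ Z` has
dimension one less than `U`. -/
lemma finrank_inf_of_notMem (U Z : Submodule K V) (hZ : finrank K (V ⧸ Z) ≤ 1) {s : V}
    (hsU : s ∈ U) (hsZ : s ∉ Z) : finrank K ↥(U ⊓ Z) + 1 = finrank K U := by
  have h1 := Submodule.finrank_sup_add_finrank_inf_eq U Z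
  have h2 := Submodule.finrank_quotient_add_finrank Z
  have h3 : Z < U ⊔ Z := by
    refine lt_of_le_of_ne le_sup_right fun h => hsZ ?_
    rw [h]
    exact Submodule.mem_sup_left hsU
  have h4 : finrank K Z < finrank K ↥(U ⊔ Z) := Submodule.finrank_lt_finrank_of_lt h3
  have h5 : finrank K ↥(U ⊔ Z) ≤ finrank K V := Submodule.finrank_le _
  omega

variable {X : Type w} [Infinite X] (Z : X → Submodule K V)

/-- **Selection of points in general position.** -/
theorem exists_points_general_position
    (hZ : ∀ q, finrank K (V ⧸ Z q) ≤ 1)
    (hfin : ∀ s : V, s ≠ 0 → {q | s ∈ Z q}.Finite)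
    {ι : Type*} [Finite ι] (U : ι → Submodule K V) (j : ℕ) :
    ∃ q : Fin j → X, Function.Injective q ∧
      ∀ t, finrank K ↥(U t ⊓ ⨅ i, Z (q i)) = finrank K (U t) - j := by
  classical
  induction j with
  | zero =>
    refine ⟨Fin.elim0, fun a => a.elim0, fun t => ?_⟩
    rw [iInf_of_empty, inf_top_eq, Nat.sub_zero]
  | succ j ih =>
    obtain ⟨q, hq, hdim⟩ := ih
    set W : Submodule K V := ⨅ i, Z (q i) with hW
    -- for each `t` a witness section (nonzero if possible)
    have hex : ∀ t, ∃ s : V, s ∈ U t ⊓ W ∧ (U t ⊓ W ≠ ⊥ → s ≠ 0) := by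
      intro t
      by_cases h : U t ⊓ W = ⊥
      · exact ⟨0, Submodule.zero_mem _, fun h' => absurd h h'⟩
      · obtain ⟨s, hs, hs0⟩ := Submodule.exists_mem_ne_zero_of_ne_bot h
        exact ⟨s, hs, fun _ => hs0⟩
    choose s hs hs0 using hex
    -- the finite set of bad points
    have hbad : (Set.range q ∪ ⋃ t, {x | s t ≠ 0 ∧ s t ∈ Z x}).Finite := by
      refine Set.Finite.union (Set.finite_range q) (Set.finite_iUnion fun t => ?_)
      by_cases h : s t = 0
      · have : {x | s t ≠ 0 ∧ s t ∈ Z x} = ∅ := by
          ext x
          simp [h]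
        rw [this]
        exact Set.finite_empty
      · exact (hfin (s t) h).subset fun x hx => hx.2
    obtain ⟨x, hx⟩ := hbad.infinite_compl.nonempty
    rw [Set.mem_compl_iff, Set.mem_union, not_or] at hx
    obtain ⟨hx1, hx2⟩ := hx
    refine ⟨Fin.snoc q x, ?_, fun t => ?_⟩
    · -- injectivity
      intro a b hab
      induction a using Fin.lastCases with
      | last =>
        induction b using Fin.lastCases with
        | last => rfl
        | cast b =>
          rw [Fin.snoc_last, Fin.snoc_castSucc] at hab
          exact absurd ⟨b, hab.symm⟩ hx1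
      | cast a =>
        induction b using Fin.lastCases with
        | last =>
          rw [Fin.snoc_last, Fin.snoc_castSucc] at hab
          exact absurd ⟨a, hab⟩ hx1
        | cast b =>
          rw [Fin.snoc_castSucc, Fin.snoc_castSucc] at hab
          rw [hq hab]
    · -- dimension count
      have hinf : (⨅ i, Z ((Fin.snoc q x : Fin (j + 1) → X) i)) = W ⊓ Z x := by
        apply le_antisymm
        · refine le_inf (le_iInf fun i => ?_) ?_
          · have := iInf_le (fun i => Z ((Fin.snoc q x : Fin (j + 1) → X) i)) (Fin.castSucc i)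
            simpa using this
          · have := iInf_le (fun i => Z ((Fin.snoc q x : Fin (j + 1) → X) i)) (Fin.last j)
            simpa using this
        · refine le_iInf fun i => ?_
          induction i using Fin.lastCases with
          | last =>
            rw [Fin.snoc_last]
            exact inf_le_right
          | cast i =>
            rw [Fin.snoc_castSucc]
            exact inf_le_left.trans (iInf_le _ i)
      rw [hinf, ← inf_assoc]
      have hd := hdim t
      by_cases h : U t ⊓ W = ⊥
      · rw [h] at hd ⊢
        rw [bot_inf_eq]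
        rw [finrank_bot] at hd ⊢
        omega
      · have hsx : s t ∉ Z x := fun hmem =>
          hx2 (Set.mem_iUnion.mpr ⟨t, ⟨hs0 t h, hmem⟩⟩)
        have := finrank_inf_of_notMem (U t ⊓ W) (Z x) (hZ x) (hs t) hsx
        omega

/-- **Cutting down to a line in general position.**  If `V` has dimension `N ≥ 1` and `H t` are
finitely many proper subspaces, there are `N - 1` distinct points `q i` such that the sections
vanishing at all `q i` form a line which meets every `H t` trivially. -/
theorem exists_points_line
    (hZ : ∀ q, finrank K (V ⧸ Z q) ≤ 1)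
    (hfin : ∀ s : V, s ≠ 0 → {q | s ∈ Z q}.Finite)
    {ι : Type*} [Finite ι] (H : ι → Submodule K V) (hH : ∀ t, H t ≠ ⊤)
    (hV : 0 < finrank K V) :
    ∃ q : Fin (finrank K V - 1) → X, Function.Injective q ∧
      finrank K ↥(⨅ i, Z (q i)) = 1 ∧ ∀ t, (⨅ i, Z (q i)) ⊓ H t = ⊥ := by
  obtain ⟨q, hq, hdim⟩ := exists_points_general_position Z hZ hfin
    (fun o : Option ι => o.elim ⊤ H) (finrank K V - 1)
  refine ⟨q, hq, ?_, fun t => ?_⟩
  · have h : finrank K ↥((⊤ : Submodule K V) ⊓ ⨅ i, Z (q i)) =
        finrank K (⊤ : Submodule K V) - (finrank K V - 1) := hdim none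
    rw [top_inf_eq, finrank_top] at h
    omega
  · have h : finrank K ↥(H t ⊓ ⨅ i, Z (q i)) = finrank K (H t) - (finrank K V - 1) :=
      hdim (some t)
    have hlt : finrank K (H t) < finrank K V := Submodule.finrank_lt (hH t)
    have h0 : finrank K ↥(H t ⊓ ⨅ i, Z (q i)) = 0 := by omega
    rw [inf_comm]
    exact Submodule.finrank_eq_zero.mp h0

end Selection

end Fermat.Agent.S25.H251
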