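import Mathlib

/-!
# S25 / block HILB / leaf H1 (helper251): the representing algebra of a Hilbert chart

`k` a commutative ring, `B` a `k`-algebra, `β : Fin g → B`.

* `MatPt k B β A`: pairs `(ρ, v)` with `ρ : B →ₐ[k] Matrix (Fin g) (Fin g) A` and `v : Fin g → A`
  such that `ρ (β i) *ᵥ v = e_i` ("commuting matrices + cyclic vector").
* `RepAlg k B β`: the explicit `k`-algebra (generic matrix entries and vector entries modulo the
  obvious relations) representing `A ↦ MatPt k B β A`.
* `repEquiv : (RepAlg k B β →ₐ[k] A) ≃ MatPt k B β A`, natural in `A` (`repEquiv_comp`).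
* `RepAlg.finiteType`: `RepAlg k B β` is a finitely generated `k`-algebra if `B` is.
-/

set_option autoImplicit false

namespace Fermat.Agent.S25.H251

open MvPolynomial

universe u v w w'

section Defs

variable (k : Type u) [CommRing k] (B : Type v) [CommRing B] [Algebra k B] {g : ℕ}

/-- A matrix point of the chart attached to `β`: a `k`-algebra map `ρ` from `B` to `g × g`
matrices over `A` together with a vector `v` such that `ρ (β i) *ᵥ v` is the `i`-th standard
basis vector. -/
@[ext]
structure MatPt (β : Fin g → B) (A : Type w) [CommRing A] [Algebra k A] where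
  /-- the action of `B` on `A ^ g` -/
  ρ : B →ₐ[k] Matrix (Fin g) (Fin g) A
  /-- the cyclic vector (the image of `1`) -/
  v : Fin g → A
  /-- `β i • v = e_i` -/
  cyc : ∀ i, (ρ (β i)).mulVec v = Pi.single i 1

namespace MatPt

variable {k B} {β : Fin g → B} {A : Type w} [CommRing A] [Algebra k A]
  {A' : Type w'} [CommRing A'] [Algebra k A']

/-- Functoriality of matrix points in the test algebra. -/
def map (φ : A →ₐ[k] A') (P : MatPt k B β A) : MatPt k B β A' where
  ρ := φ.mapMatrix.comp P.ρ
  v := φ ∘ P.v
  cyc i := by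
    have h : (φ : A → A') ∘ ((P.ρ (β i)).mulVec P.v) = (φ : A → A') ∘ (Pi.single i 1) :=
      congrArg (fun w : Fin g → A => (φ : A → A') ∘ w) (P.cyc i)
    have h2 : ((φ.mapMatrix.comp P.ρ) (β i)).mulVec (φ ∘ P.v) =
        (φ : A → A') ∘ ((P.ρ (β i)).mulVec P.v) := by
      ext j
      simp [Matrix.mulVec, dotProduct, map_sum, map_mul]
    rw [h2, h]
    ext j
    simp only [Function.comp_apply, Pi.single_apply]
    split_ifs <;> simp

@[simp] lemma map_ρ_apply (φ : A →ₐ[k] A') (P : MatPt k B β A) (b : B) (i j : Fin g) :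
    (P.map φ).ρ b i j = φ (P.ρ b i j) := rfl

@[simp] lemma map_v (φ : A →ₐ[k] A') (P : MatPt k B β A) (i : Fin g) :
    (P.map φ).v i = φ (P.v i) := rfl

lemma map_id (P : MatPt k B β A) : P.map (AlgHom.id k A) = P := by
  ext <;> simp

lemma map_comp {A'' : Type*} [CommRing A''] [Algebra k A''] (φ : A →ₐ[k] A')
    (ψ : A' →ₐ[k] A'') (P : MatPt k B β A) : P.map (ψ.comp φ) = (P.map φ).map ψ := by
  ext <;> simp

end MatPt

/-- The generators of the representing algebra: matrix entries `x_{b,i,j}` and vector
entries `v_i`. -/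
abbrev Gen (B : Type v) (g : ℕ) : Type v := (B × Fin g × Fin g) ⊕ Fin g

/-- The polynomial ring on the generators. -/
abbrev GenPoly (g : ℕ) : Type (max u v) := MvPolynomial (Gen B g) k

variable (g) in
/-- The generic matrix attached to `b : B`. -/
noncomputable def genMat (b : B) : Matrix (Fin g) (Fin g) (GenPoly k B g) :=
  Matrix.of fun i j => X (Sum.inl (b, i, j))

variable (g) in
/-- The generic vector. -/
noncomputable def genVec : Fin g → GenPoly k B g := fun i => X (Sum.inr i)

/-- The relations: `b ↦ genMat b` is additive, multiplicative, compatible with scalars, and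
`genMat (β i) *ᵥ genVec = e_i`. -/
def relSet (β : Fin g → B) : Set (GenPoly k B g) :=
  {p | ∃ (b b' : B) (i j : Fin g),
      p = genMat k B g (b + b') i j - (genMat k B g b + genMat k B g b') i j} ∪
  {p | ∃ (b b' : B) (i j : Fin g),
      p = genMat k B g (b * b') i j - (genMat k B g b * genMat k B g b') i j} ∪
  {p | ∃ (c : k) (i j : Fin g),
      p = genMat k B g (algebraMap k B c) i j -
        (algebraMap k (Matrix (Fin g) (Fin g) (GenPoly k B g)) c) i j} ∪
  {p | ∃ (i j : Fin g),
      p = (genMat k B g (β i)).mulVec (genVec k B g) j - (Pi.single i 1 : Fin g → GenPoly k B g) j}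

/-- The representing algebra of the chart attached to `β`. -/
def RepAlg (β : Fin g → B) : Type (max u v) := GenPoly k B g ⧸ Ideal.span (relSet k B β)

noncomputable instance (β : Fin g → B) : CommRing (RepAlg k B β) :=
  inferInstanceAs (CommRing (GenPoly k B g ⧸ Ideal.span (relSet k B β)))

noncomputable instance (β : Fin g → B) : Algebra k (RepAlg k B β) :=
  inferInstanceAs (Algebra k (GenPoly k B g ⧸ Ideal.span (relSet k B β)))

/-- The quotient map from the polynomial ring. -/
noncomputable def RepAlg.mk (β : Fin g → B) : GenPoly k B g →ₐ[k] RepAlg k B β :=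
  Ideal.Quotient.mkₐ k (Ideal.span (relSet k B β))

lemma RepAlg.mk_surjective (β : Fin g → B) : Function.Surjective (RepAlg.mk k B β) :=
  Ideal.Quotient.mkₐ_surjective k _

lemma RepAlg.mk_eq_zero {β : Fin g → B} {p : GenPoly k B g} (hp : p ∈ relSet k B β) :
    RepAlg.mk k B β p = 0 :=
  Ideal.Quotient.eq_zero_iff_mem.mpr (Ideal.subset_span hp)

end Defs

section Universal

variable (k : Type u) [CommRing k] {B : Type v} [CommRing B] [Algebra k B] {g : ℕ}
variable (β : Fin g → B)

/-- The universal matrix attached to `b : B`, over the representing algebra. -/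
noncomputable def uMat (b : B) : Matrix (Fin g) (Fin g) (RepAlg k B β) :=
  (RepAlg.mk k B β).mapMatrix (genMat k B g b)

/-- The universal cyclic vector. -/
noncomputable def uVec : Fin g → RepAlg k B β := fun i => RepAlg.mk k B β (genVec k B g i)

variable {k} in
lemma uMat_apply (b : B) (i j : Fin g) :
    uMat k β b i j = RepAlg.mk k B β (X (Sum.inl (b, i, j))) := rfl

lemma uMat_add (b b' : B) : uMat k β (b + b') = uMat k β b + uMat k β b' := by
  ext i j
  have h := RepAlg.mk_eq_zero k B (β := β)
    (p := genMat k B g (b + b') i j - (genMat k B g b + genMat k B g b') i j)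
    (Or.inl (Or.inl (Or.inl ⟨b, b', i, j, rfl⟩)))
  rw [map_sub, sub_eq_zero] at h
  simpa [uMat, AlgHom.mapMatrix_apply, Matrix.map_apply] using h

lemma uMat_mul (b b' : B) : uMat k β (b * b') = uMat k β b * uMat k β b' := by
  ext i j
  have h := RepAlg.mk_eq_zero k B (β := β)
    (p := genMat k B g (b * b') i j - (genMat k B g b * genMat k B g b') i j)
    (Or.inl (Or.inl (Or.inr ⟨b, b', i, j, rfl⟩)))
  rw [map_sub, sub_eq_zero] at h
  have h2 : uMat k β b * uMat k β b' =
      (RepAlg.mk k B β).mapMatrix (genMat k B g b * genMat k B g b') := by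
    rw [map_mul]; rfl
  rw [h2]
  simpa [uMat, AlgHom.mapMatrix_apply, Matrix.map_apply] using h

lemma uMat_algebraMap (c : k) :
    uMat k β (algebraMap k B c) = algebraMap k (Matrix (Fin g) (Fin g) (RepAlg k B β)) c := by
  ext i j
  have h := RepAlg.mk_eq_zero k B (β := β)
    (p := genMat k B g (algebraMap k B c) i j -
        (algebraMap k (Matrix (Fin g) (Fin g) (GenPoly k B g)) c) i j)
    (Or.inl (Or.inr ⟨c, i, j, rfl⟩))
  rw [map_sub, sub_eq_zero] at h
  rw [uMat_apply]
  rw [show genMat k B g (algebraMap k B c) i j = X (Sum.inl (algebraMap k B c, i, j)) from rfl] at h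
  rw [h]
  simp only [Matrix.algebraMap_matrix_apply]
  split_ifs <;> simp

lemma uMat_mulVec_uVec (i : Fin g) : (uMat k β (β i)).mulVec (uVec k β) = Pi.single i 1 := by
  ext j
  have h := RepAlg.mk_eq_zero k B (β := β)
    (p := (genMat k B g (β i)).mulVec (genVec k B g) j -
      (Pi.single i 1 : Fin g → GenPoly k B g) j)
    (Or.inr ⟨i, j, rfl⟩)
  rw [map_sub, sub_eq_zero] at h
  have h1 : (uMat k β (β i)).mulVec (uVec k β) j =
      RepAlg.mk k B β ((genMat k B g (β i)).mulVec (genVec k B g) j) := by
    simp [Matrix.mulVec, dotProduct, map_sum, map_mul, uMat, uVec]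
  rw [h1, h]
  simp only [Pi.single_apply]
  split_ifs <;> simp

/-- The universal matrix point over the representing algebra. -/
noncomputable def univPt : MatPt k B β (RepAlg k B β) where
  ρ :=
    { toFun := uMat k β
      map_one' := by
        have := uMat_algebraMap k β (1 : k)
        simpa using this
      map_mul' := uMat_mul k β
      map_zero' := by
        have := uMat_algebraMap k β (0 : k)
        simpa using this
      map_add' := uMat_add k β
      commutes' := uMat_algebraMap k β }
  v := uVec k β
  cyc := uMat_mulVec_uVec k β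

@[simp] lemma univPt_ρ_apply (b : B) (i j : Fin g) :
    (univPt k β).ρ b i j = RepAlg.mk k B β (X (Sum.inl (b, i, j))) := rfl

@[simp] lemma univPt_v (i : Fin g) : (univPt k β).v i = RepAlg.mk k B β (X (Sum.inr i)) := rfl

variable {k} {β}
variable {A : Type w} [CommRing A] [Algebra k A]

/-- The values of the generators at a matrix point. -/
def MatPt.val (P : MatPt k B β A) : Gen B g → A :=
  Sum.elim (fun x => P.ρ x.1 x.2.1 x.2.2) P.v

lemma MatPt.aeval_genMat (P : MatPt k B β A) (b : B) :
    (aeval P.val : GenPoly k B g →ₐ[k] A).mapMatrix (genMat k B g b) = P.ρ b := by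
  ext i j
  simp [genMat, MatPt.val, AlgHom.mapMatrix_apply]

lemma MatPt.aeval_mem_relSet (P : MatPt k B β A) {p : GenPoly k B g} (hp : p ∈ relSet k B β) :
    aeval P.val p = 0 := by
  rcases hp with ((⟨b, b', i, j, rfl⟩ | ⟨b, b', i, j, rfl⟩) | ⟨c, i, j, rfl⟩) | ⟨i, j, rfl⟩
  · have h1 := congrFun (congrFun (P.aeval_genMat (b + b')) i) j
    have h2 := congrFun (congrFun (P.aeval_genMat b) i) j
    have h3 := congrFun (congrFun (P.aeval_genMat b') i) j
    simp only [AlgHom.mapMatrix_apply, Matrix.map_apply] at h1 h2 h3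
    rw [map_sub, Matrix.add_apply, map_add, h1, h2, h3, map_add, Matrix.add_apply, sub_self]
  · have h1 := congrFun (congrFun (P.aeval_genMat (b * b')) i) j
    simp only [AlgHom.mapMatrix_apply, Matrix.map_apply] at h1
    have h2 : aeval P.val ((genMat k B g b * genMat k B g b') i j) = (P.ρ b * P.ρ b') i j := by
      rw [← P.aeval_genMat b, ← P.aeval_genMat b', ← map_mul]
      simp [AlgHom.mapMatrix_apply]
    rw [map_sub, h1, h2, map_mul, sub_self]
  · have h1 := congrFun (congrFun (P.aeval_genMat (algebraMap k B c)) i) j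
    simp only [AlgHom.mapMatrix_apply, Matrix.map_apply] at h1
    rw [map_sub, h1, AlgHom.commutes]
    simp only [Matrix.algebraMap_matrix_apply]
    split_ifs <;> simp
  · have h1 : aeval P.val ((genMat k B g (β i)).mulVec (genVec k B g) j) =
        (P.ρ (β i)).mulVec P.v j := by
      rw [← P.aeval_genMat (β i)]
      simp [Matrix.mulVec, dotProduct, map_sum, map_mul, genVec, MatPt.val,
        AlgHom.mapMatrix_apply]
    rw [map_sub, h1, P.cyc i]
    simp only [Pi.single_apply]
    split_ifs <;> simp

/-- The classifying map of a matrix point. -/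
noncomputable def MatPt.classify (P : MatPt k B β A) : RepAlg k B β →ₐ[k] A :=
  Ideal.Quotient.liftₐ (Ideal.span (relSet k B β)) (aeval P.val) (by
    intro p hp
    have hle : Ideal.span (relSet k B β) ≤ RingHom.ker (aeval P.val : GenPoly k B g →ₐ[k] A) := by
      rw [Ideal.span_le]
      intro q hq
      exact P.aeval_mem_relSet hq
    exact hle hp)

@[simp] lemma MatPt.classify_mk (P : MatPt k B β A) (p : GenPoly k B g) :
    P.classify (RepAlg.mk k B β p) = aeval P.val p := rfl

lemma MatPt.map_classify_univPt (P : MatPt k B β A) : (univPt k β).map P.classify = P := by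
  ext
  · simp [MatPt.val]
  · simp [MatPt.val]

lemma algHom_ext_mk {f f' : RepAlg k B β →ₐ[k] A}
    (h : ∀ x : Gen B g, f (RepAlg.mk k B β (X x)) = f' (RepAlg.mk k B β (X x))) : f = f' := by
  have h2 : f.comp (RepAlg.mk k B β) = f'.comp (RepAlg.mk k B β) :=
    MvPolynomial.algHom_ext fun x => h x
  ext y
  obtain ⟨p, rfl⟩ := RepAlg.mk_surjective k B β y
  exact DFunLike.congr_fun h2 p

lemma classify_map_univPt (f : RepAlg k B β →ₐ[k] A) : ((univPt k β).map f).classify = f := by
  refine algHom_ext_mk fun x => ?_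
  rcases x with ⟨b, i, j⟩ | i <;> simp [MatPt.val]

variable (k β) in
/-- **Representability of the chart functor**: `k`-algebra maps out of `RepAlg k B β` are the same
as matrix points. -/
noncomputable def repEquiv (A : Type w) [CommRing A] [Algebra k A] :
    (RepAlg k B β →ₐ[k] A) ≃ MatPt k B β A where
  toFun f := (univPt k β).map f
  invFun P := P.classify
  left_inv f := classify_map_univPt f
  right_inv P := P.map_classify_univPt

/-- Naturality of `repEquiv` in the test algebra. -/
lemma repEquiv_comp {A' : Type w'} [CommRing A'] [Algebra k A'] (φ : A →ₐ[k] A')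
    (f : RepAlg k B β →ₐ[k] A) : repEquiv k β A' (φ.comp f) = (repEquiv k β A f).map φ :=
  MatPt.map_comp f φ (univPt k β)

end Universal

section FiniteType

variable (k : Type u) [CommRing k] {B : Type v} [CommRing B] [Algebra k B] {g : ℕ}
variable (β : Fin g → B)

/-- If the entries of `uMat b` lie in a subalgebra for `b` in a generating set of `B`, they do so
for all `b`. -/
lemma uMat_mem_of_adjoin_eq_top {S : Set B} (hS : Algebra.adjoin k S = ⊤)
    (R' : Subalgebra k (RepAlg k B β))
    (h : ∀ s ∈ S, ∀ i j, uMat k β s i j ∈ R') (b : B) (i j : Fin g) : uMat k β b i j ∈ R' := by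
  have hb : b ∈ Algebra.adjoin k S := by rw [hS]; exact Algebra.mem_top
  revert i j
  induction hb using Algebra.adjoin_induction with
  | mem x hx => exact h x hx
  | algebraMap c =>
    intro i j
    rw [uMat_algebraMap, Matrix.algebraMap_matrix_apply]
    split_ifs
    · exact R'.algebraMap_mem c
    · exact R'.zero_mem
  | add x y _ _ hx hy =>
    intro i j
    rw [uMat_add, Matrix.add_apply]
    exact R'.add_mem (hx i j) (hy i j)
  | mul x y _ _ hx hy =>
    intro i j
    rw [uMat_mul, Matrix.mul_apply]
    exact R'.sum_mem fun l _ => R'.mul_mem (hx i l) (hy l j)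

/-- The representing algebra is generated by the entries of `uMat s`, `s` in a generating set
of `B`, and the entries of `uVec`. -/
lemma adjoin_uMat_uVec_eq_top {S : Set B} (hS : Algebra.adjoin k S = ⊤) :
    Algebra.adjoin k
      ({x | ∃ s ∈ S, ∃ i j, x = uMat k β s i j} ∪ Set.range (uVec k β)) = ⊤ := by
  set G : Set (RepAlg k B β) :=
    {x | ∃ s ∈ S, ∃ i j, x = uMat k β s i j} ∪ Set.range (uVec k β) with hG
  rw [eq_top_iff]
  rintro y -
  obtain ⟨p, rfl⟩ := RepAlg.mk_surjective k B β y
  have hmat : ∀ (b : B) (i j : Fin g), uMat k β b i j ∈ Algebra.adjoin k G :=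
    uMat_mem_of_adjoin_eq_top k β hS _ fun s hs i j =>
      Algebra.subset_adjoin (Or.inl ⟨s, hs, i, j, rfl⟩)
  induction p using MvPolynomial.induction_on with
  | C c =>
    have : RepAlg.mk k B β (C c) = algebraMap k _ c := (RepAlg.mk k B β).commutes c
    rw [this]
    exact Subalgebra.algebraMap_mem _ c
  | add p q hp hq =>
    rw [map_add]
    exact Subalgebra.add_mem _ hp hq
  | mul_X p x hp =>
    rw [map_mul]
    refine Subalgebra.mul_mem _ hp ?_
    rcases x with ⟨b, i, j⟩ | i
    · exact hmat b i j
    · exact Algebra.subset_adjoin (Or.inr ⟨i, rfl⟩)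

/-- The representing algebra of a chart is of finite type when `B` is. -/
theorem RepAlg.finiteType [Algebra.FiniteType k B] : Algebra.FiniteType k (RepAlg k B β) := by
  classical
  obtain ⟨S, hS⟩ := (Algebra.FiniteType.out : (⊤ : Subalgebra k B).FG)
  refine ⟨⟨(S.biUnion fun s => Finset.univ.biUnion fun i : Fin g =>
      Finset.univ.image fun j : Fin g => uMat k β s i j) ∪ Finset.univ.image (uVec k β), ?_⟩⟩
  rw [← adjoin_uMat_uVec_eq_top k β hS]
  congr 1
  ext x
  simp only [Finset.coe_union, Finset.coe_biUnion, Finset.coe_image, Finset.coe_univ,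
    Set.mem_union, Set.mem_iUnion, Set.mem_image, Set.mem_univ, true_and, Set.mem_ofPred_eq,
    Set.mem_range, Finset.mem_coe, exists_prop]
  constructor
  · rintro (⟨s, hs, i, j, rfl⟩ | ⟨i, rfl⟩)
    · exact Or.inl ⟨s, hs, i, j, rfl⟩
    · exact Or.inr ⟨i, rfl⟩
  · rintro (⟨s, hs, i, j, rfl⟩ | ⟨i, rfl⟩)
    · exact Or.inl ⟨s, hs, i, j, rfl⟩
    · exact Or.inr ⟨i, rfl⟩

end FiniteType

end Fermat.Agent.S25.H251
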