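import Mathlib

/-!
# S25 / ALGCHARTS C2 core (helper251): the divisor of a section, pure algebra

Two-chart setting: `R₀ → R₀₁ ← R₁` with `R₀₁ = R₀[1/x] = R₁[1/y]`, `x y = 1`, `R₀` finite over
`A[x]`, `R₁` integral over `A[y]`; modules `N₀`, `N₁` with common localisation `N₀₁`, and a
section `(s₀, s₁)`, `r₀ s₀ = r₁ s₁`.

* `exists_poly_smul_mem_span`: if `s₁` generates `N₁` modulo `y` then a polynomial `p(y)` with
  `p(0) = 1` maps `N₁` into `R₁ s₁` (Nakayama + integrality);
* `exists_monic_smul_mem_span`: then a monic polynomial `F(x)` maps `N₀` into `R₀ s₀`;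
* `finite_of_monic_aeval_smul_eq_zero`: a finite `R₀`-module killed by a monic `F(x)` is finite
  over `A`;
* `projective_of_flat_of_lTensor_residueField_injective`: local criterion — if `M → N → P → 0` is
  exact, `N` is flat, `P` is finitely presented and `κ(m) ⊗ M → κ(m) ⊗ N` is injective for all
  maximal `m`, then `P` is projective;
* `finite_projective_quotient_of_section`: assembly — the cokernel of `s₀ : R₀ → N₀` is a finite
  projective `A`-module.
-/

set_option autoImplicit false

namespace Fermat.Agent.S25.H251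

open Polynomial

universe u v w

section Integral

variable {A : Type u} [CommRing A] {S : Type v} [CommRing S] [Algebra A S]

/-- If `u v = 1` and `v` is integral over `A[u]`, then `u` is a root of a polynomial with
constant term `1`. -/
lemma exists_poly_coeff_zero_eq_one_of_integral_inv (u v : S) (huv : u * v = 1)
    (hv : (aeval u : A[X] →ₐ[A] S).toRingHom.IsIntegralElem v) :
    ∃ p : A[X], p.coeff 0 = 1 ∧ aeval u p = 0 := by
  obtain ⟨G, hG, hG0⟩ := hv
  refine ⟨∑ i ∈ Finset.range (G.natDegree + 1), G.coeff i * X ^ (G.natDegree - i), ?_, ?_⟩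
  · rw [finsetSum_coeff]
    rw [Finset.sum_eq_single G.natDegree]
    · rw [Nat.sub_self, pow_zero, mul_one, hG.coeff_natDegree, coeff_one_zero]
    · intro i hi hne
      rw [coeff_mul_X_pow', if_neg]
      have := Finset.mem_range.mp hi
      omega
    · intro h
      exact absurd (Finset.mem_range.mpr (Nat.lt_succ_self _)) h
  · rw [map_sum]
    have h1 : u ^ G.natDegree * eval₂ (aeval u : A[X] →ₐ[A] S).toRingHom v G = 0 := by
      rw [hG0, mul_zero]
    rw [eval₂_eq_sum_range, Finset.mul_sum] at h1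
    rw [← h1]
    refine Finset.sum_congr rfl fun i hi => ?_
    have hi' : i ≤ G.natDegree := Nat.lt_succ_iff.mp (Finset.mem_range.mp hi)
    have h2 : u ^ G.natDegree * v ^ i = u ^ (G.natDegree - i) := by
      conv_lhs => rw [← Nat.sub_add_cancel hi', pow_add, mul_assoc, ← mul_pow, huv, one_pow,
        mul_one]
    rw [map_mul, map_pow, aeval_X]
    change (aeval u) (G.coeff i) * u ^ (G.natDegree - i) =
      u ^ G.natDegree * ((aeval u) (G.coeff i) * v ^ i)
    rw [← h2]
    ring

end Integral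

section Nakayama

variable {A : Type u} [CommRing A] {R : Type v} [CommRing R] [Algebra A R]
  {N : Type w} [AddCommGroup N] [Module R N]

/-- **Killing polynomial on the chart at infinity.**  If `R` is integral over `A[y]`, `N` is a
finitely generated `R`-module and `s` generates `N` modulo `y`, then some polynomial `p(y)` with
`p(0) = 1` maps `N` into `R s`. -/
theorem exists_poly_smul_mem_span (y : R)
    (hint : (aeval y : A[X] →ₐ[A] R).toRingHom.IsIntegral) [Module.Finite R N] (s : N)
    (hgen : Submodule.span R {s} ⊔ (Ideal.span {y}) • (⊤ : Submodule R N) = ⊤) :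
    ∃ p : A[X], p.coeff 0 = 1 ∧ ∀ n : N, aeval y p • n ∈ Submodule.span R {s} := by
  -- Nakayama on the quotient
  have hQ : (⊤ : Submodule R (N ⧸ Submodule.span R {s})) ≤
      (Ideal.span {y}) • (⊤ : Submodule R (N ⧸ Submodule.span R {s})) := by
    rintro q -
    obtain ⟨n, rfl⟩ := Submodule.mkQ_surjective _ q
    have hn : n ∈ Submodule.span R {s} ⊔ (Ideal.span {y}) • (⊤ : Submodule R N) := by
      rw [hgen]; trivial
    obtain ⟨a, ha, b, hb, rfl⟩ := Submodule.mem_sup.mp hn
    have ha0 : (Submodule.span R {s}).mkQ a = 0 := by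
      rw [Submodule.mkQ_apply, Submodule.Quotient.mk_eq_zero]
      exact ha
    rw [map_add, ha0, zero_add]
    have : (Submodule.span R {s}).mkQ b ∈
        Submodule.map (Submodule.span R {s}).mkQ ((Ideal.span {y}) • (⊤ : Submodule R N)) :=
      Submodule.mem_map_of_mem hb
    rw [Submodule.map_smul''] at this
    exact Submodule.smul_mono le_rfl le_top this
  obtain ⟨r, hr1, hr⟩ := Submodule.exists_sub_one_mem_and_smul_eq_zero_of_fg_of_le_smul
    (Ideal.span {y}) (⊤ : Submodule R (N ⧸ Submodule.span R {s}))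
    (Module.Finite.fg_top) hQ
  obtain ⟨t, ht⟩ := Ideal.mem_span_singleton'.mp hr1
  -- the quotient ring `R ⧸ (r)`
  let S := R ⧸ Ideal.span {r}
  let mk : R →ₐ[A] S := Ideal.Quotient.mkₐ A (Ideal.span {r})
  have hmkr : mk r = 0 := Ideal.Quotient.eq_zero_iff_mem.mpr (Ideal.subset_span rfl)
  have huv : mk y * mk (-t) = 1 := by
    rw [← map_mul]
    have : y * -t = 1 - r := by
      have := ht
      linear_combination -this
    rw [this, map_sub, map_one, hmkr, sub_zero]
  have hcomp : (aeval (mk y) : A[X] →ₐ[A] S) = mk.comp (aeval y) := by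
    ext
    simp
  have hv : (aeval (mk y) : A[X] →ₐ[A] S).toRingHom.IsIntegralElem (mk (-t)) := by
    obtain ⟨G, hG, hG0⟩ := hint (-t)
    refine ⟨G, hG, ?_⟩
    rw [hcomp]
    have := congrArg mk hG0
    rw [map_zero] at this
    rw [← this]
    exact (Polynomial.hom_eval₂ G (aeval y : A[X] →ₐ[A] R).toRingHom mk.toRingHom (-t)).symm
  obtain ⟨p, hp0, hp⟩ := exists_poly_coeff_zero_eq_one_of_integral_inv (A := A) (mk y) (mk (-t))
    huv hv
  refine ⟨p, hp0, fun n => ?_⟩
  rw [hcomp] at hp
  have hmem : aeval y p ∈ Ideal.span {r} := Ideal.Quotient.eq_zero_iff_mem.mp hp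
  obtain ⟨c, hc⟩ := Ideal.mem_span_singleton'.mp hmem
  have h0 := hr ((Submodule.span R {s}).mkQ n) trivial
  rw [← map_smul, Submodule.mkQ_apply, Submodule.Quotient.mk_eq_zero] at h0
  rw [← hc, mul_smul]
  exact Submodule.smul_mem _ _ h0

end Nakayama

end Fermat.Agent.S25.H251


namespace Fermat.Agent.S25.H251

open Polynomial

universe u v w

section TwoChart

variable {A : Type u} [CommRing A]
  {R₀ R₁ R₀₁ : Type v} [CommRing R₀] [CommRing R₁] [CommRing R₀₁]
  [Algebra A R₀] [Algebra A R₁] [Algebra A R₀₁] [Algebra R₀ R₀₁] [Algebra R₁ R₀₁]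
  [IsScalarTower A R₀ R₀₁] [IsScalarTower A R₁ R₀₁]
  {N₀ N₁ N₀₁ : Type w} [AddCommGroup N₀] [AddCommGroup N₁] [AddCommGroup N₀₁]
  [Module R₀ N₀] [Module R₁ N₁] [Module R₀₁ N₀₁] [Module R₀ N₀₁] [Module R₁ N₀₁]
  [IsScalarTower R₀ R₀₁ N₀₁] [IsScalarTower R₁ R₀₁ N₀₁]

/-- a polynomial with constant coefficient one has monic reverse -/
lemma monic_reverse_of_coeff_zero_eq_one (p : A[X]) (hp0 : p.coeff 0 = 1) : p.reverse.Monic := by
  rcases subsingleton_or_nontrivial A with h | h
  · exact Subsingleton.elim _ _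
  · have h0 : p.natTrailingDegree = 0 := by
      apply Nat.eq_zero_of_le_zero
      apply natTrailingDegree_le_of_ne_zero
      rw [hp0]
      exact one_ne_zero
    rw [Monic, reverse_leadingCoeff, trailingCoeff, h0, hp0]

/-- One element: transfer of the killing polynomial from the chart at infinity. -/
lemma exists_pow_mul_reverse_smul_mem_span (x : R₀) (y : R₁)
    (hxy : algebraMap R₀ R₀₁ x * algebraMap R₁ R₀₁ y = 1)
    [IsLocalization.Away x R₀₁]
    (r₀ : N₀ →ₗ[R₀] N₀₁) (r₁ : N₁ →ₗ[R₁] N₀₁)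
    (h₀ : IsLocalizedModule (Submonoid.powers x) r₀)
    (h₁ : IsLocalizedModule (Submonoid.powers y) r₁)
    (s₀ : N₀) (s₁ : N₁) (hs : r₀ s₀ = r₁ s₁)
    (p : A[X]) (hp : ∀ n : N₁, aeval y p • n ∈ Submodule.span R₁ {s₁}) (n : N₀) :
    ∃ E : ℕ, aeval x (X ^ E * p.reverse) • n ∈ Submodule.span R₀ {s₀} := by
  -- notation in `R₀₁`
  set X₀ : R₀₁ := algebraMap R₀ R₀₁ x with hX₀
  set Y₁ : R₀₁ := algebraMap R₁ R₀₁ y with hY₁
  have hyx : Y₁ * X₀ = 1 := by rw [mul_comm]; exact hxy
  -- (a) denominators in the chart at infinity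
  obtain ⟨⟨n₁, c⟩, hc⟩ := h₁.surj (r₀ n)
  obtain ⟨j, hjc⟩ := c.2
  have hj : y ^ j • r₀ n = r₁ n₁ := by
    have : (c : R₁) • r₀ n = r₁ n₁ := hc
    rw [← this, ← hjc]
  obtain ⟨a, ha⟩ := Submodule.mem_span_singleton.mp (hp n₁)
  -- (c) denominators of `a`
  obtain ⟨⟨a₀, c'⟩, hc'⟩ := IsLocalization.surj (Submonoid.powers x) (algebraMap R₁ R₀₁ a)
  obtain ⟨K, hKc⟩ := c'.2
  have hK : algebraMap R₁ R₀₁ a * algebraMap R₀ R₀₁ (x ^ K) = algebraMap R₀ R₀₁ a₀ := by
    have : algebraMap R₁ R₀₁ a * algebraMap R₀ R₀₁ (c' : R₀) = algebraMap R₀ R₀₁ a₀ := hc'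
    rw [← this, ← hKc]
  -- the key identity in `N₀₁`
  let _ : Invertible Y₁ := ⟨X₀, hxy, hyx⟩
  have hrev : eval₂ (algebraMap A R₀₁) X₀ p.reverse * Y₁ ^ p.natDegree =
      eval₂ (algebraMap A R₀₁) Y₁ p := eval₂_reverse_mul_pow (algebraMap A R₀₁) Y₁ p
  have hPx : algebraMap R₀ R₀₁ (aeval x p.reverse) = eval₂ (algebraMap A R₀₁) X₀ p.reverse := by
    rw [aeval_def, hom_eval₂, ← IsScalarTower.algebraMap_eq]
  have hpy : algebraMap R₁ R₀₁ (aeval y p) = eval₂ (algebraMap A R₀₁) Y₁ p := by
    rw [aeval_def, hom_eval₂, ← IsScalarTower.algebraMap_eq]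
  have hXY : ∀ m : ℕ, X₀ ^ m * Y₁ ^ m = 1 := fun m => by rw [← mul_pow, hxy, one_pow]
  have key : r₀ ((aeval x p.reverse * x ^ K) • n) =
      r₀ ((x ^ (p.natDegree + j) * a₀) • s₀) := by
    rw [map_smul, map_smul, ← algebraMap_smul R₀₁ (aeval x p.reverse * x ^ K),
      ← algebraMap_smul R₀₁ (x ^ (p.natDegree + j) * a₀), map_mul, map_mul, map_pow, map_pow,
      hPx, ← hK, hs, map_pow]
    change (eval₂ (algebraMap A R₀₁) X₀ p.reverse * X₀ ^ K) • r₀ n =
      (X₀ ^ (p.natDegree + j) * (algebraMap R₁ R₀₁ a * X₀ ^ K)) • r₁ s₁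
    -- rewrite `r₁ s₁` using `a • s₁ = p(y) n₁`
    have h1 : algebraMap R₁ R₀₁ a • r₁ s₁ = (eval₂ (algebraMap A R₀₁) Y₁ p * Y₁ ^ j) • r₀ n := by
      rw [algebraMap_smul, ← map_smul, ha, map_smul, ← hj, ← algebraMap_smul R₀₁ (aeval y p),
        ← algebraMap_smul R₀₁ (y ^ j), smul_smul, hpy, map_pow]
    have h2 : (X₀ ^ (p.natDegree + j) * (algebraMap R₁ R₀₁ a * X₀ ^ K)) • r₁ s₁ =
        (X₀ ^ (p.natDegree + j) * X₀ ^ K) • (algebraMap R₁ R₀₁ a • r₁ s₁) := by
      rw [smul_smul]
      congr 1
      ring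
    rw [h2, h1, smul_smul, ← hrev]
    congr 1
    have := hXY (p.natDegree + j)
    calc eval₂ (algebraMap A R₀₁) X₀ p.reverse * X₀ ^ K
        = eval₂ (algebraMap A R₀₁) X₀ p.reverse * X₀ ^ K * (X₀ ^ (p.natDegree + j) *
            Y₁ ^ (p.natDegree + j)) := by rw [this, mul_one]
      _ = X₀ ^ (p.natDegree + j) * X₀ ^ K *
          (eval₂ (algebraMap A R₀₁) X₀ p.reverse * Y₁ ^ p.natDegree * Y₁ ^ j) := by
        rw [pow_add Y₁]; ring
  -- (b) kill the difference by a power of `x`
  have hdiff : r₀ ((aeval x p.reverse * x ^ K) • n - (x ^ (p.natDegree + j) * a₀) • s₀) = 0 := by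
    rw [map_sub, key, sub_self]
  obtain ⟨c'', hL⟩ := (IsLocalizedModule.eq_zero_iff (Submonoid.powers x) r₀).mp hdiff
  obtain ⟨L, hLc⟩ := c''.2
  refine ⟨L + K, ?_⟩
  have hL' : x ^ L • ((aeval x p.reverse * x ^ K) • n - (x ^ (p.natDegree + j) * a₀) • s₀) = 0 := by
    have : (c'' : R₀) • ((aeval x p.reverse * x ^ K) • n - (x ^ (p.natDegree + j) * a₀) • s₀) = 0 :=
      hL
    rw [← this, ← hLc]
  rw [smul_sub, sub_eq_zero, smul_smul, smul_smul] at hL'
  have hF : aeval x (X ^ (L + K) * p.reverse) = x ^ L * (aeval x p.reverse * x ^ K) := by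
    rw [map_mul, map_pow, aeval_X, pow_add]
    ring
  rw [hF, hL']
  exact Submodule.smul_mem _ _ (Submodule.subset_span rfl)

end TwoChart

end Fermat.Agent.S25.H251


namespace Fermat.Agent.S25.H251

open Polynomial

universe u v w

section FiniteOfMonic

variable {A : Type u} [CommRing A] {R : Type v} [CommRing R] [Algebra A R]
  {M : Type w} [AddCommGroup M] [Module R M] [Module A M] [IsScalarTower A R M]

/-- A finitely generated module over a ring `R` finite over `A[x]`, killed by a monic polynomial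
in `x`, is finitely generated over `A`. -/
theorem finite_of_monic_aeval_smul_eq_zero (x : R)
    (hfin : (aeval x : A[X] →ₐ[A] R).Finite) [Module.Finite R M]
    (F : A[X]) (hF : F.Monic) (hkill : ∀ m : M, aeval x F • m = 0) : Module.Finite A M := by
  let : Algebra A[X] R := (aeval x : A[X] →ₐ[A] R).toRingHom.toAlgebra
  have : Module.Finite A[X] R := hfin
  let : Module A[X] M := Module.compHom M (algebraMap A[X] R)
  have : IsScalarTower A[X] R M :=
    ⟨fun g r m => by
      change (algebraMap A[X] R g * r) • m = (algebraMap A[X] R g) • (r • m)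
      rw [mul_smul]⟩
  have : Module.Finite A[X] M := Module.Finite.trans R M
  have hsmul : ∀ (g : A[X]) (m : M), g • m = aeval x g • m := fun g m => rfl
  have : IsScalarTower A A[X] M :=
    ⟨fun a g m => by
      rw [hsmul, hsmul, map_smul, smul_assoc]⟩
  have htors : Module.IsTorsionBySet A[X] M (Ideal.span {F} : Ideal A[X]) := by
    rw [Module.isTorsionBySet_span_singleton_iff]
    intro m
    exact hkill m
  let : Module (A[X] ⧸ Ideal.span {F}) M := htors.module
  have : Module.Finite (A[X] ⧸ Ideal.span {F}) M :=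
    Module.Finite.of_restrictScalars_finite A[X] _ M
  have : Module.Finite A (A[X] ⧸ Ideal.span {F}) := hF.finite_quotient
  have : IsScalarTower A (A[X] ⧸ Ideal.span {F}) M :=
    ⟨fun a t m => by
      obtain ⟨g, rfl⟩ := Ideal.Quotient.mk_surjective t
      change (a • Ideal.Quotient.mk _ g) • m = a • (Ideal.Quotient.mk _ g • m)
      have h1 : a • Ideal.Quotient.mk (Ideal.span {F}) g = Ideal.Quotient.mk _ (a • g) := rfl
      rw [h1]
      change (a • g) • m = a • (g • m)
      rw [smul_assoc]⟩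
  exact Module.Finite.trans (A[X] ⧸ Ideal.span {F}) M

end FiniteOfMonic

end Fermat.Agent.S25.H251


namespace Fermat.Agent.S25.H251

open Module TensorProduct
open Function (Injective Surjective Exact)

universe u v w w'

section LocalCriterion

variable {R : Type u} [CommRing R] {M : Type v} {N : Type w} {P : Type w'}
  [AddCommGroup M] [AddCommGroup N] [AddCommGroup P] [Module R M] [Module R N] [Module R P]

/-- Local criterion: over a local ring, if `M → N → P → 0` is exact with `N` flat and `P`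
finitely presented, and `k ⊗ M → k ⊗ N` is injective, then `P` is free. -/
theorem free_of_flat_of_lTensor_residueField_injective [IsLocalRing R]
    (f : M →ₗ[R] N) (g : N →ₗ[R] P) (hg : Surjective g) (h : Exact f g)
    [Module.Flat R N] [Module.FinitePresentation R P]
    (hf : Injective (f.lTensor (IsLocalRing.ResidueField R))) : Module.Free R P := by
  apply Module.free_of_maximalIdeal_rTensor_injective
  rw [← LinearMap.lTensor_inj_iff_rTensor_inj]
  apply lTensor_injective_of_exact_of_exact_of_rTensor_injective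
    h hg (LinearMap.exact_subtype_mkQ (IsLocalRing.maximalIdeal R)) (Submodule.mkQ_surjective _)
    ((LinearMap.lTensor_inj_iff_rTensor_inj _ _).mp hf)
    (Module.Flat.lTensor_preserves_injective_linearMap _ Subtype.val_injective)

end LocalCriterion

end Fermat.Agent.S25.H251

namespace Fermat.Agent.S25.H251

open Module TensorProduct
open Function (Injective Surjective Exact)

universe u v w w'

section GlobalCriterion

variable {R : Type u} [CommRing R] {M : Type v} {N : Type w} {P : Type w'}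
  [AddCommGroup M] [AddCommGroup N] [AddCommGroup P] [Module R M] [Module R N] [Module R P]

/-- Naturality of `cancelBaseChange`. -/
lemma cancelBaseChange_lTensor_baseChange (R' κ : Type*) [CommRing R'] [Algebra R R']
    [CommRing κ] [Algebra R κ] [Algebra R' κ] [IsScalarTower R R' κ] (f : M →ₗ[R] N)
    (x : κ ⊗[R'] (R' ⊗[R] M)) :
    AlgebraTensorModule.cancelBaseChange R R' κ κ N ((f.baseChange R').lTensor κ x) =
      f.lTensor κ (AlgebraTensorModule.cancelBaseChange R R' κ κ M x) := by
  induction x using TensorProduct.induction_on with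
  | zero => simp
  | tmul c z =>
    induction z using TensorProduct.induction_on with
    | zero => simp
    | tmul r m => simp
    | add a b ha hb =>
      simp only [tmul_add, map_add] at ha hb ⊢
      rw [ha, hb]
  | add a b ha hb => simp only [map_add, ha, hb]

/-- **Fibrewise injectivity implies projective cokernel.**  If `M → N → P → 0` is exact with `N`
flat and `P` finitely presented, and `κ(m) ⊗ M → κ(m) ⊗ N` is injective for every maximal ideal
`m`, then `P` is flat. -/
theorem flat_of_flat_of_lTensor_residueField_injective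
    (f : M →ₗ[R] N) (g : N →ₗ[R] P) (hg : Surjective g) (h : Exact f g)
    [Module.Flat R N] [Module.FinitePresentation R P]
    (hf : ∀ (m : Ideal R) [m.IsMaximal], Injective (f.lTensor m.ResidueField)) :
    Module.Flat R P := by
  apply Module.flat_of_localized_maximal
  intro m hm
  have hex' : Exact (f.baseChange (Localization.AtPrime m))
      (g.baseChange (Localization.AtPrime m)) := lTensor_exact (Localization.AtPrime m) h hg
  have hg' : Surjective (g.baseChange (Localization.AtPrime m)) :=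
    LinearMap.lTensor_surjective (Localization.AtPrime m) hg
  have hf' : Injective ((f.baseChange (Localization.AtPrime m)).lTensor
      (IsLocalRing.ResidueField (Localization.AtPrime m))) := by
    intro a b hab
    have h1 := congrArg (AlgebraTensorModule.cancelBaseChange R (Localization.AtPrime m)
      m.ResidueField m.ResidueField N) hab
    rw [cancelBaseChange_lTensor_baseChange, cancelBaseChange_lTensor_baseChange] at h1
    exact (AlgebraTensorModule.cancelBaseChange R (Localization.AtPrime m)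
      m.ResidueField m.ResidueField M).injective (hf m h1)
  have hfree : Module.Free (Localization.AtPrime m) (Localization.AtPrime m ⊗[R] P) :=
    free_of_flat_of_lTensor_residueField_injective _ _ hg' hex' hf'
  have hflat : Module.Flat R (Localization.AtPrime m ⊗[R] P) :=
    Module.Flat.trans R (Localization.AtPrime m) _
  exact Module.Flat.of_linearEquiv
    ((LocalizedModule.equivTensorProduct m.primeCompl P).restrictScalars R)

/-- **Fibrewise injectivity implies projective cokernel.** -/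
theorem projective_of_flat_of_lTensor_residueField_injective
    (f : M →ₗ[R] N) (g : N →ₗ[R] P) (hg : Surjective g) (h : Exact f g)
    [Module.Flat R N] [Module.FinitePresentation R P]
    (hf : ∀ (m : Ideal R) [m.IsMaximal], Injective (f.lTensor m.ResidueField)) :
    Module.Projective R P := by
  have := flat_of_flat_of_lTensor_residueField_injective f g hg h hf
  exact Module.Flat.projective_of_finitePresentation

end GlobalCriterion

end Fermat.Agent.S25.H251

namespace Fermat.Agent.S25.H251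

open Polynomial

universe u v w

section TwoChartGlobal

variable {A : Type u} [CommRing A]
  {R₀ R₁ R₀₁ : Type v} [CommRing R₀] [CommRing R₁] [CommRing R₀₁]
  [Algebra A R₀] [Algebra A R₁] [Algebra A R₀₁] [Algebra R₀ R₀₁] [Algebra R₁ R₀₁]
  [IsScalarTower A R₀ R₀₁] [IsScalarTower A R₁ R₀₁]
  {N₀ N₁ N₀₁ : Type w} [AddCommGroup N₀] [AddCommGroup N₁] [AddCommGroup N₀₁]
  [Module R₀ N₀] [Module R₁ N₁] [Module R₀₁ N₀₁] [Module R₀ N₀₁] [Module R₁ N₀₁]
  [IsScalarTower R₀ R₀₁ N₀₁] [IsScalarTower R₁ R₀₁ N₀₁]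

/-- **Killing polynomial on the finite chart.**  If a polynomial `p(y)` with `p(0) = 1` maps `N₁`
into `R₁ s₁`, then a monic polynomial `F(x)` maps `N₀` into `R₀ s₀`. -/
theorem exists_monic_smul_mem_span (x : R₀) (y : R₁)
    (hxy : algebraMap R₀ R₀₁ x * algebraMap R₁ R₀₁ y = 1)
    [IsLocalization.Away x R₀₁]
    (r₀ : N₀ →ₗ[R₀] N₀₁) (r₁ : N₁ →ₗ[R₁] N₀₁)
    (h₀ : IsLocalizedModule (Submonoid.powers x) r₀)
    (h₁ : IsLocalizedModule (Submonoid.powers y) r₁)
    [Module.Finite R₀ N₀] (s₀ : N₀) (s₁ : N₁) (hs : r₀ s₀ = r₁ s₁)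
    (p : A[X]) (hp0 : p.coeff 0 = 1)
    (hp : ∀ n : N₁, aeval y p • n ∈ Submodule.span R₁ {s₁}) :
    ∃ F : A[X], F.Monic ∧ ∀ n : N₀, aeval x F • n ∈ Submodule.span R₀ {s₀} := by
  classical
  obtain ⟨T, hT⟩ := (Module.Finite.fg_top : (⊤ : Submodule R₀ N₀).FG)
  choose E hE using fun n =>
    exists_pow_mul_reverse_smul_mem_span (A := A) x y hxy r₀ r₁ h₀ h₁ s₀ s₁ hs p hp n
  refine ⟨X ^ (T.sup E) * p.reverse,
    (monic_X_pow _).mul (monic_reverse_of_coeff_zero_eq_one p hp0), fun n => ?_⟩
  have key : ∀ t ∈ T, aeval x (X ^ (T.sup E) * p.reverse) • t ∈ Submodule.span R₀ {s₀} := by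
    intro t ht
    have hle : E t ≤ T.sup E := Finset.le_sup ht
    have h1 : (X : A[X]) ^ (T.sup E) * p.reverse =
        X ^ (T.sup E - E t) * (X ^ (E t) * p.reverse) := by
      rw [← mul_assoc, ← pow_add, Nat.sub_add_cancel hle]
    rw [h1, map_mul, mul_smul]
    exact Submodule.smul_mem _ _ (hE t)
  have hn : n ∈ Submodule.span R₀ (T : Set N₀) := by rw [hT]; trivial
  induction hn using Submodule.span_induction with
  | mem t ht => exact key t ht
  | zero => rw [smul_zero]; exact Submodule.zero_mem _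
  | add a b _ _ ha hb => rw [smul_add]; exact Submodule.add_mem _ ha hb
  | smul r a _ ha => rw [smul_comm]; exact Submodule.smul_mem _ _ ha

end TwoChartGlobal

end Fermat.Agent.S25.H251

namespace Fermat.Agent.S25.H251

open Polynomial TensorProduct

universe u v w

section FP

variable {A : Type u} [CommRing A] {R : Type v} [CommRing R] [Algebra A R]
  {N : Type w} [AddCommGroup N] [Module R N] [Module A N] [IsScalarTower A R N]

/-- `N` with the operator `x` is an equivariant retract of `A[X] ^ n`: elementary form of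
"`N` is a finitely generated projective `A[x]`-module". -/
def IsPolyRetract (x : R) (N : Type w) [AddCommGroup N] [Module R N] [Module A N] : Prop :=
  ∃ (n : ℕ) (ι : N →ₗ[A] (Fin n → A[X])) (π : (Fin n → A[X]) →ₗ[A] N),
    π ∘ₗ ι = LinearMap.id ∧ (∀ v, ι (x • v) = (X : A[X]) • ι v) ∧
      (∀ w, π ((X : A[X]) • w) = x • π w)

omit [Algebra A R] [IsScalarTower A R N] in
lemma IsPolyRetract.projective {x : R} (h : IsPolyRetract (A := A) x N) :
    Module.Projective A N := by
  obtain ⟨n, ι, π, hπι, -, -⟩ := h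
  exact Module.Projective.of_split ι π hπι

/-- A quotient of an equivariant retract of `A[X]^n` by a finitely generated `R`-submodule
containing `F(x) N`, `F` monic, is a finitely presented `A`-module. -/
theorem finitePresentation_quotient_of_monic (x : R)
    (hfin : (aeval x : A[X] →ₐ[A] R).Finite) (hN : IsPolyRetract (A := A) x N)
    (L : Submodule R N) (hL : L.FG)
    (F : A[X]) (hF : F.Monic) (hkill : ∀ n : N, aeval x F • n ∈ L) :
    Module.FinitePresentation A (N ⧸ L) := by
  classical
  obtain ⟨n, ι, π, hπι, hι, hπ⟩ := hN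
  let : Algebra A[X] R := (aeval x : A[X] →ₐ[A] R).toRingHom.toAlgebra
  have : Module.Finite A[X] R := hfin
  have halg : ∀ g : A[X], algebraMap A[X] R g = aeval x g := fun g => rfl
  have : IsScalarTower A A[X] R := IsScalarTower.of_algebraMap_eq fun a => by
    rw [halg, ← Polynomial.C_eq_algebraMap, aeval_C]
  let : Module A[X] N := Module.compHom N (algebraMap A[X] R)
  have hsmul : ∀ (g : A[X]) (m : N), g • m = aeval x g • m := fun g m => rfl
  have : IsScalarTower A[X] R N :=
    ⟨fun g r m => by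
      change (algebraMap A[X] R g * r) • m = (algebraMap A[X] R g) • (r • m)
      rw [mul_smul]⟩
  have : IsScalarTower A A[X] N :=
    ⟨fun a g m => by rw [hsmul, hsmul, map_smul, smul_assoc]⟩
  -- `ι` and `π` are `A[X]`-linear
  have hιX : ∀ (g : A[X]) (v : N), ι (g • v) = g • ι v := by
    intro g
    induction g using Polynomial.induction_on with
    | C a =>
      intro v
      rw [hsmul, aeval_C, algebraMap_smul, map_smul, ← Polynomial.algebraMap_eq,
        algebraMap_smul]
    | add p q hp hq => intro v; rw [add_smul, map_add, hp, hq, add_smul]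
    | monomial k a ih =>
      intro v
      have hX : (X : A[X]) • v = x • v := by rw [hsmul, aeval_X]
      rw [pow_succ, ← mul_assoc, mul_smul, hX, ih, hι, ← mul_smul]
  have hπX : ∀ (g : A[X]) (w : Fin n → A[X]), π (g • w) = g • π w := by
    intro g
    induction g using Polynomial.induction_on with
    | C a =>
      intro w
      rw [hsmul, aeval_C, algebraMap_smul, ← Polynomial.algebraMap_eq, algebraMap_smul,
        map_smul]
    | add p q hp hq => intro w; rw [add_smul, map_add, hp, hq, add_smul]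
    | monomial k a ih =>
      intro w
      have hX : ∀ m : N, (X : A[X]) • m = x • m := fun m => by rw [hsmul, aeval_X]
      rw [pow_succ, ← mul_assoc, mul_smul, ih, hπ, ← hX, ← mul_smul]
  let ι' : N →ₗ[A[X]] (Fin n → A[X]) := { ι with map_smul' := fun g v => hιX g v }
  let π' : (Fin n → A[X]) →ₗ[A[X]] N := { π with map_smul' := fun g w => hπX g w }
  have hπι' : π' ∘ₗ ι' = LinearMap.id := by
    ext v
    exact LinearMap.congr_fun hπι v
  have : Module.Projective A[X] N := Module.Projective.of_split ι' π' hπι'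
  have : Module.Finite A[X] N :=
    Module.Finite.of_surjective π' fun v => ⟨ι' v, LinearMap.congr_fun hπι' v⟩
  have : Module.FinitePresentation A[X] N := Module.finitePresentation_of_projective A[X] N
  -- the quotient is finitely presented over `A[X]`
  have : Module.Finite R L := Module.Finite.iff_fg.mpr hL
  have : Module.Finite A[X] L := Module.Finite.trans R L
  have hLfg : (L.restrictScalars A[X]).FG := Module.Finite.iff_fg.mp ‹Module.Finite A[X] L›
  have : Module.FinitePresentation A[X] (N ⧸ L) := by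
    refine Module.finitePresentation_of_surjective (L.mkQ.restrictScalars A[X])
      (Submodule.mkQ_surjective L) ?_
    have : LinearMap.ker (L.mkQ.restrictScalars A[X]) = L.restrictScalars A[X] := by
      ext v
      simp
    rw [this]
    exact hLfg
  -- `F` kills the quotient
  have hFQ : ∀ q : N ⧸ L, F • q = 0 := by
    intro q
    obtain ⟨v, rfl⟩ := Submodule.mkQ_surjective L q
    have h1 : F • L.mkQ v = (L.mkQ.restrictScalars A[X]) (F • v) := by
      rw [map_smul]
      rfl
    rw [h1, hsmul]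
    exact (Submodule.Quotient.mk_eq_zero L).mpr (hkill v)
  -- pass to `S = A[X] ⧸ (F)`
  have : Module.Finite A (A[X] ⧸ Ideal.span {F}) := hF.finite_quotient
  have : Module.Free A (A[X] ⧸ Ideal.span {F}) := hF.free_quotient
  have : Module.FinitePresentation A (A[X] ⧸ Ideal.span {F}) :=
    Module.finitePresentation_of_projective A _
  have : Module.FinitePresentation A ((A[X] ⧸ Ideal.span {F}) ⊗[A[X]] (N ⧸ L)) :=
    Module.FinitePresentation.trans A _ (A[X] ⧸ Ideal.span {F})
  have hbot : ((Ideal.span {F} : Ideal A[X]) • (⊤ : Submodule A[X] (N ⧸ L))) = ⊥ := by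
    rw [eq_bot_iff, Submodule.smul_le]
    intro r hr q _
    obtain ⟨c, rfl⟩ := Ideal.mem_span_singleton'.mp hr
    rw [Submodule.mem_bot, mul_smul, hFQ, smul_zero]
  let e : ((A[X] ⧸ Ideal.span {F}) ⊗[A[X]] (N ⧸ L)) ≃ₗ[A[X]] (N ⧸ L) :=
    (TensorProduct.quotTensorEquivQuotSMul (N ⧸ L) (Ideal.span {F})).trans
      (Submodule.quotEquivOfEqBot _ hbot)
  exact Module.FinitePresentation.of_equiv (e.restrictScalars A)

end FP

end Fermat.Agent.S25.H251

namespace Fermat.Agent.S25.H251

open Polynomial TensorProduct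
open Function (Injective Surjective Exact)

universe u v w

section Assembly

variable {A : Type u} [CommRing A]
  {R₀ R₁ R₀₁ : Type v} [CommRing R₀] [CommRing R₁] [CommRing R₀₁]
  [Algebra A R₀] [Algebra A R₁] [Algebra A R₀₁] [Algebra R₀ R₀₁] [Algebra R₁ R₀₁]
  [IsScalarTower A R₀ R₀₁] [IsScalarTower A R₁ R₀₁]
  {N₀ N₁ N₀₁ : Type w} [AddCommGroup N₀] [AddCommGroup N₁] [AddCommGroup N₀₁]
  [Module R₀ N₀] [Module R₁ N₁] [Module R₀₁ N₀₁] [Module R₀ N₀₁] [Module R₁ N₀₁]
  [IsScalarTower R₀ R₀₁ N₀₁] [IsScalarTower R₁ R₀₁ N₀₁]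
  [Module A N₀] [IsScalarTower A R₀ N₀]

/-- **C2 core, finiteness.**  If the section `(s₀, s₁)` generates `N₁` modulo `y`, the cokernel
of `s₀ : R₀ → N₀` is killed by a monic polynomial in `x` and is a finite `A`-module. -/
theorem finite_quotient_of_section (x : R₀) (y : R₁)
    (hxy : algebraMap R₀ R₀₁ x * algebraMap R₁ R₀₁ y = 1)
    [IsLocalization.Away x R₀₁]
    (hfin₀ : (aeval x : A[X] →ₐ[A] R₀).Finite)
    (hint₁ : (aeval y : A[X] →ₐ[A] R₁).toRingHom.IsIntegral)
    (r₀ : N₀ →ₗ[R₀] N₀₁) (r₁ : N₁ →ₗ[R₁] N₀₁)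
    (h₀ : IsLocalizedModule (Submonoid.powers x) r₀)
    (h₁ : IsLocalizedModule (Submonoid.powers y) r₁)
    [Module.Finite R₀ N₀] [Module.Finite R₁ N₁]
    (s₀ : N₀) (s₁ : N₁) (hs : r₀ s₀ = r₁ s₁)
    (hgen : Submodule.span R₁ {s₁} ⊔ (Ideal.span {y}) • (⊤ : Submodule R₁ N₁) = ⊤) :
    (∃ F : A[X], F.Monic ∧ ∀ n : N₀, aeval x F • n ∈ Submodule.span R₀ {s₀}) ∧
      Module.Finite A (N₀ ⧸ Submodule.span R₀ {s₀}) := by
  obtain ⟨p, hp0, hp⟩ := exists_poly_smul_mem_span (A := A) y hint₁ s₁ hgen
  obtain ⟨F, hF, hFk⟩ := exists_monic_smul_mem_span (A := A) x y hxy r₀ r₁ h₀ h₁ s₀ s₁ hs p hp0 hp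
  refine ⟨⟨F, hF, hFk⟩, ?_⟩
  refine finite_of_monic_aeval_smul_eq_zero (A := A) (R := R₀) x hfin₀ F hF fun q => ?_
  obtain ⟨v, rfl⟩ := Submodule.mkQ_surjective _ q
  rw [← map_smul, Submodule.mkQ_apply]
  exact (Submodule.Quotient.mk_eq_zero _).mpr (hFk v)


/-- The sequence `R₀ → N₀ → N₀ ⧸ R₀ s₀ → 0` is exact (as `A`-linear maps). -/
theorem exact_toSpanSingleton_mkQ (s₀ : N₀) :
    Exact ((LinearMap.toSpanSingleton R₀ N₀ s₀).restrictScalars A)
      ((Submodule.span R₀ {s₀}).mkQ.restrictScalars A) := by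
  intro v
  rw [LinearMap.restrictScalars_apply, Submodule.mkQ_apply, Submodule.Quotient.mk_eq_zero,
    Submodule.mem_span_singleton]
  rfl

theorem surjective_mkQ_restrictScalars (L : Submodule R₀ N₀) :
    Surjective (L.mkQ.restrictScalars A) := by
  intro q
  obtain ⟨v, rfl⟩ := Submodule.Quotient.mk_surjective _ q
  exact ⟨v, rfl⟩

/-- Fibrewise injectivity of `s₀ : R₀ → N₀` makes its cokernel projective over `A`, provided
`N₀` is `A`-flat and the cokernel is finitely presented over `A`. -/
theorem projective_quotient_span_singleton (s₀ : N₀) [Module.Flat A N₀]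
    [Module.FinitePresentation A (N₀ ⧸ Submodule.span R₀ {s₀})]
    (hfib : ∀ (m : Ideal A) [m.IsMaximal], Injective
      (((LinearMap.toSpanSingleton R₀ N₀ s₀).restrictScalars A).lTensor m.ResidueField)) :
    Module.Projective A (N₀ ⧸ Submodule.span R₀ {s₀}) :=
  projective_of_flat_of_lTensor_residueField_injective _ _
    (surjective_mkQ_restrictScalars (A := A) _) (exact_toSpanSingleton_mkQ (A := A) s₀) hfib

/-- **C2 core.**  If the section `(s₀, s₁)` generates `N₁` modulo `y` and `s₀` is injective on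
every fibre over a maximal ideal of `A`, then the cokernel of `s₀ : R₀ → N₀` is a finite
projective `A`-module. -/
theorem finite_projective_quotient_of_section (x : R₀) (y : R₁)
    (hxy : algebraMap R₀ R₀₁ x * algebraMap R₁ R₀₁ y = 1)
    [IsLocalization.Away x R₀₁]
    (hfin₀ : (aeval x : A[X] →ₐ[A] R₀).Finite)
    (hint₁ : (aeval y : A[X] →ₐ[A] R₁).toRingHom.IsIntegral)
    (r₀ : N₀ →ₗ[R₀] N₀₁) (r₁ : N₁ →ₗ[R₁] N₀₁)
    (h₀ : IsLocalizedModule (Submonoid.powers x) r₀)
    (h₁ : IsLocalizedModule (Submonoid.powers y) r₁)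
    [Module.Finite R₀ N₀] [Module.Finite R₁ N₁]
    (hN₀ : IsPolyRetract (A := A) x N₀)
    (s₀ : N₀) (s₁ : N₁) (hs : r₀ s₀ = r₁ s₁)
    (hgen : Submodule.span R₁ {s₁} ⊔ (Ideal.span {y}) • (⊤ : Submodule R₁ N₁) = ⊤)
    (hfib : ∀ (m : Ideal A) [m.IsMaximal], Injective
      (((LinearMap.toSpanSingleton R₀ N₀ s₀).restrictScalars A).lTensor m.ResidueField)) :
    Module.Finite A (N₀ ⧸ Submodule.span R₀ {s₀}) ∧
      Module.Projective A (N₀ ⧸ Submodule.span R₀ {s₀}) := by
  obtain ⟨⟨F, hF, hFk⟩, hfinQ⟩ := finite_quotient_of_section (A := A) x y hxy hfin₀ hint₁ r₀ r₁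
    h₀ h₁ s₀ s₁ hs hgen
  refine ⟨hfinQ, ?_⟩
  have hfp : Module.FinitePresentation A (N₀ ⧸ Submodule.span R₀ {s₀}) :=
    finitePresentation_quotient_of_monic (A := A) x hfin₀ hN₀ _
      (Submodule.fg_span_singleton s₀) F hF hFk
  have hpr : Module.Projective A N₀ := hN₀.projective
  exact projective_quotient_span_singleton (A := A) s₀ hfib

end Assembly

end Fermat.Agent.S25.H251
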